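import Mathlib.RingTheory.LaurentSeries
import Mathlib.LinearAlgebra.Dimension.Finite
import Mathlib.LinearAlgebra.FiniteDimensional.Lemmas
import Fermat.Agent.ES.M.Q2Core

/-!
# ES / I2aux: the linear count

`k` a field, `W n ⊆ k((q))` subspaces of series with pole order `≤ n`, and `F_1, …, F_g ∈ q k[[q]]`
linearly independent "cusp forms".  If

* `a₀ (w · F_i) = 0` for all `w ∈ W n` (the residue theorem), and
* a `w ∈ W n` without pole and without constant term is `0`,

then `dim W n + g ≤ n + 1` for all large `n` (`i2_count`).  This is the last step of (I2).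
-/

set_option autoImplicit false

noncomputable section

namespace Fermat.Agent.ES.I2aux

open HahnSeries Module

variable {k : Type*} [Field k]

/-- the coefficient functionals on `k((q))` -/
def cntCoeff (n : ℤ) : LaurentSeries k →ₗ[k] k where
  toFun x := x.coeff n
  map_add' x y := HahnSeries.coeff_add' x y ▸ rfl
  map_smul' c x := by
    show (c • x).coeff n = c • x.coeff n
    rw [HahnSeries.coeff_smul]

theorem cntCoeff_apply (n : ℤ) (x : LaurentSeries k) : cntCoeff n x = x.coeff n := rfl

/-- two series without terms of degree `≤ 0` have a product without constant term -/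
theorem cnt_coeff_zero_mul_of_pos (x y : LaurentSeries k) (hx : ∀ m : ℤ, m ≤ 0 → x.coeff m = 0)
    (hy : ∀ m : ℤ, m ≤ 0 → y.coeff m = 0) : (x * y).coeff 0 = 0 := by
  rw [HahnSeries.coeff_mul]
  refine Finset.sum_eq_zero fun ij hij => ?_
  rw [Finset.mem_antidiagonal] at hij
  obtain ⟨-, -, h⟩ := hij
  by_cases h1 : ij.1 ≤ 0
  · rw [hx _ h1, zero_mul]
  · rw [hy _ (by omega), mul_zero]

theorem cnt_coeff_zero_single_mul (m : ℤ) (r : k) (y : LaurentSeries k) :
    ((HahnSeries.single (-m) r : LaurentSeries k) * y).coeff 0 = r * y.coeff m := by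
  have h := HahnSeries.coeff_single_mul_add (r := r) (x := y) (a := m) (b := -m)
  rwa [add_neg_cancel] at h

/-- `a₀ (w · y) = Σ_{m ≤ n} w_{-m} y_m` if `w` has pole order `≤ n` and `y ∈ q k[[q]]` -/
theorem cnt_coeff_zero_mul (n : ℕ) (w y : LaurentSeries k)
    (hw : ∀ m : ℤ, m < -(n : ℤ) → w.coeff m = 0) (hy : ∀ m : ℤ, m ≤ 0 → y.coeff m = 0) :
    (w * y).coeff 0 = ∑ m : Fin (n + 1), w.coeff (-((m : ℕ) : ℤ)) * y.coeff ((m : ℕ) : ℤ) := by
  classical
  set pp : LaurentSeries k :=
    ∑ m : Fin (n + 1), HahnSeries.single (-((m : ℕ) : ℤ)) (w.coeff (-((m : ℕ) : ℤ))) with hpp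
  have hppco : ∀ a : ℤ, pp.coeff a = if -(n : ℤ) ≤ a ∧ a ≤ 0 then w.coeff a else 0 := by
    intro a
    rw [hpp, HahnSeries.coeff_sum]
    split_ifs with h
    · obtain ⟨h1, h2⟩ := h
      have hlt : (-a).toNat < n + 1 := by omega
      rw [Finset.sum_eq_single (⟨(-a).toNat, hlt⟩ : Fin (n + 1))]
      · have e : -(((⟨(-a).toNat, hlt⟩ : Fin (n + 1)) : ℕ) : ℤ) = a := by
          simp only
          omega
        rw [e, HahnSeries.coeff_single_same]
      · intro b _ hb
        rw [HahnSeries.coeff_single_of_ne]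
        intro h3
        apply hb
        apply Fin.ext
        simp only
        omega
      · intro h3
        exact absurd (Finset.mem_univ _) h3
    · refine Finset.sum_eq_zero fun b _ => ?_
      rw [HahnSeries.coeff_single_of_ne]
      intro h3
      apply h
      have := b.2
      constructor <;> omega
  have hrest : ∀ m : ℤ, m ≤ 0 → (w - pp).coeff m = 0 := by
    intro m hm
    rw [HahnSeries.coeff_sub, hppco]
    split_ifs with h
    · rw [sub_self]
    · rw [sub_zero]
      apply hw
      by_contra h1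
      apply h
      constructor <;> omega
  have h1 : w * y = pp * y + (w - pp) * y := by ring
  rw [h1, HahnSeries.coeff_add, cnt_coeff_zero_mul_of_pos _ _ hrest hy, add_zero, hpp,
    Finset.sum_mul, HahnSeries.coeff_sum]
  refine Finset.sum_congr rfl fun m _ => ?_
  rw [cnt_coeff_zero_single_mul]

/-- **the linear count** -/
theorem i2_count (W : ℕ → Submodule k (LaurentSeries k))
    (hW : ∀ n, ∀ w ∈ W n, ∀ m : ℤ, m < -(n : ℤ) → w.coeff m = 0)
    (g : ℕ) (F : Fin g → LaurentSeries k)
    (hF0 : ∀ i (m : ℤ), m ≤ 0 → (F i).coeff m = 0) (hFli : LinearIndependent k F)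
    (hres : ∀ n, ∀ w ∈ W n, ∀ i, (w * F i).coeff 0 = 0)
    (hconst : ∀ n, ∀ w ∈ W n, (∀ m : ℤ, m ≤ 0 → w.coeff m = 0) → w = 0) :
    ∃ n₀ : ℕ, ∀ n, n₀ ≤ n →
      Module.Finite k ↥(W n) ∧ Module.finrank k ↥(W n) + g ≤ n + 1 := by
  classical
  -- pivots
  obtain ⟨b, p, hbspan, -, hδ⟩ := Fermat.Agent.ES.M.q2_elim (⊤ : Subring k) (cntCoeff (k := k))
    (⊤ : Submodule k (LaurentSeries k))
    (by
      intro x _ hx
      have : ∃ n₀, x.coeff n₀ ≠ 0 := by
        by_contra hcon
        push Not at hcon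
        exact hx (HahnSeries.ext (funext hcon))
      obtain ⟨n₀, hn₀⟩ := this
      exact ⟨n₀, hn₀, fun _ => Subring.mem_top _⟩)
    g F hFli (fun _ => Submodule.mem_top)
  have hb : ∀ i, (∀ m : ℤ, m ≤ 0 → (b i).coeff m = 0) ∧
      ∀ n, ∀ w ∈ W n, (w * b i).coeff 0 = 0 := by
    intro i
    refine Submodule.span_induction (p := fun x _ => (∀ m : ℤ, m ≤ 0 → x.coeff m = 0) ∧
      ∀ n, ∀ w ∈ W n, (w * x).coeff 0 = 0) ?_ ?_ ?_ ?_ (hbspan i)
    · rintro _ ⟨j, rfl⟩
      exact ⟨hF0 j, fun n w hw => hres n w hw j⟩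
    · exact ⟨fun _ _ => rfl, fun n w _ => by rw [mul_zero, HahnSeries.coeff_zero]⟩
    · rintro x y _ _ ⟨hx1, hx2⟩ ⟨hy1, hy2⟩
      refine ⟨fun m hm => ?_, fun n w hw => ?_⟩
      · rw [HahnSeries.coeff_add, hx1 m hm, hy1 m hm, add_zero]
      · rw [mul_add, HahnSeries.coeff_add, hx2 n w hw, hy2 n w hw, add_zero]
    · rintro c x _ ⟨hx1, hx2⟩
      refine ⟨fun m hm => ?_, fun n w hw => ?_⟩
      · rw [HahnSeries.coeff_smul, hx1 m hm, smul_zero]
      · rw [← HahnSeries.C_mul_eq_smul, mul_left_comm, HahnSeries.C_mul_eq_smul,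
          HahnSeries.coeff_smul, hx2 n w hw, smul_zero]
  have hp : ∀ j, 0 < p j := by
    intro j
    by_contra h
    have h1 := (hb j).1 (p j) (by omega)
    have h2 := hδ j j
    rw [cntCoeff_apply, h1, if_pos rfl] at h2
    exact zero_ne_one h2
  refine ⟨Finset.univ.sup fun j => (p j).toNat, fun n hn => ?_⟩
  have hpn : ∀ j, (p j).toNat ≤ n := fun j =>
    (Finset.le_sup (f := fun j => (p j).toNat) (Finset.mem_univ j)).trans hn
  -- principal parts
  set φ : ↥(W n) →ₗ[k] (Fin (n + 1) → k) :=
    { toFun := fun w m => (w : LaurentSeries k).coeff (-((m : ℕ) : ℤ))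
      map_add' := fun x y => by
        ext m
        simp only [Submodule.coe_add, HahnSeries.coeff_add, Pi.add_apply]
      map_smul' := fun c x => by
        ext m
        simp only [Submodule.coe_smul, HahnSeries.coeff_smul, Pi.smul_apply, RingHom.id_apply] }
    with hφ
  have hφinj : Function.Injective φ := by
    rw [← LinearMap.ker_eq_bot, LinearMap.ker_eq_bot']
    intro w hw0
    apply Subtype.ext
    refine hconst n w w.2 fun m hm => ?_
    by_cases h1 : m < -(n : ℤ)
    · exact hW n w w.2 m h1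
    · have hlt : (-m).toNat < n + 1 := by omega
      have h2 := congrFun hw0 ⟨(-m).toNat, hlt⟩
      have e : -(((⟨(-m).toNat, hlt⟩ : Fin (n + 1)) : ℕ) : ℤ) = m := by
        simp only
        omega
      simp only [hφ, LinearMap.coe_mk, AddHom.coe_mk, Pi.zero_apply] at h2
      rw [e] at h2
      exact h2
  have hfin : Module.Finite k ↥(W n) := Module.Finite.of_injective φ hφinj
  refine ⟨hfin, ?_⟩
  -- the conditions
  set Φ : (Fin (n + 1) → k) →ₗ[k] (Fin g → k) :=
    { toFun := fun c i => ∑ m : Fin (n + 1), c m * (b i).coeff ((m : ℕ) : ℤ)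
      map_add' := fun x y => by
        ext i
        simp only [Pi.add_apply, add_mul, Finset.sum_add_distrib]
      map_smul' := fun c x => by
        ext i
        simp only [Pi.smul_apply, smul_eq_mul, RingHom.id_apply, Finset.mul_sum, mul_assoc] }
    with hΦ
  have hΦφ : ∀ w : ↥(W n), Φ (φ w) = 0 := by
    intro w
    ext i
    have h1 := cnt_coeff_zero_mul n (w : LaurentSeries k) (b i) (hW n w w.2) (hb i).1
    rw [(hb i).2 n w w.2] at h1
    simp only [hΦ, hφ, LinearMap.coe_mk, AddHom.coe_mk, Pi.zero_apply]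
    exact h1.symm
  have hΦsurj : Function.Surjective Φ := by
    intro v
    refine ⟨∑ j, v j • Pi.single (⟨(p j).toNat, Nat.lt_succ_of_le (hpn j)⟩ : Fin (n + 1)) 1, ?_⟩
    rw [map_sum]
    ext i
    rw [Finset.sum_apply]
    have h1 : ∀ j, (Φ (v j • Pi.single (⟨(p j).toNat, Nat.lt_succ_of_le (hpn j)⟩ :
        Fin (n + 1)) (1 : k))) i = if i = j then v j else 0 := by
      intro j
      rw [map_smul, Pi.smul_apply, smul_eq_mul]
      simp only [hΦ, LinearMap.coe_mk, AddHom.coe_mk]
      rw [Finset.sum_eq_single (⟨(p j).toNat, Nat.lt_succ_of_le (hpn j)⟩ : Fin (n + 1))]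
      · rw [Pi.single_eq_same, one_mul]
        have e : (((⟨(p j).toNat, Nat.lt_succ_of_le (hpn j)⟩ : Fin (n + 1)) : ℕ) : ℤ) = p j := by
          simp only
          have := hp j
          omega
        rw [e]
        have := hδ i j
        rw [cntCoeff_apply] at this
        rw [this]
        split_ifs <;> simp
      · intro m _ hm
        rw [Pi.single_eq_of_ne hm, zero_mul]
      · intro h
        exact absurd (Finset.mem_univ _) h
    rw [Finset.sum_congr rfl fun j _ => h1 j, Finset.sum_ite_eq Finset.univ i]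
    simp
  have hker : Module.finrank k (LinearMap.ker Φ) + g = n + 1 := by
    have h1 := LinearMap.finrank_range_add_finrank_ker Φ
    rw [LinearMap.range_eq_top.2 hΦsurj, finrank_top, Module.finrank_fin_fun,
      Module.finrank_fin_fun] at h1
    omega
  have hle : Module.finrank k ↥(W n) ≤ Module.finrank k (LinearMap.ker Φ) := by
    set ψ : ↥(W n) →ₗ[k] LinearMap.ker Φ :=
      LinearMap.codRestrict (LinearMap.ker Φ) φ (fun w => LinearMap.mem_ker.2 (hΦφ w)) with hψ
    have hψinj : Function.Injective ψ := by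
      intro x y hxy
      apply hφinj
      have := congrArg Subtype.val hxy
      simpa [hψ] using this
    exact LinearMap.finrank_le_finrank_of_injective hψinj
  omega

end Fermat.Agent.ES.I2aux
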