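import Fermat.Agent.S28.Deriv

/-!
# ES / I2aux: formal residues

`θ = q d/dq` on Laurent series (`Fermat.Agent.S28.Deriv.thetaFun`).  For a nonzero Laurent series
`τ` over a field `k` of ANY characteristic and `n : ℤ`:

  `(τ ^ n * θ τ).coeff 0 = 0` for `n ≠ -1`,   `(τ⁻¹ * θ τ).coeff 0 = ord τ`.

(`res_zpow_mul_theta`.)  In characteristic `0` this is `(n + 1) τ^n θτ = θ (τ^(n+1))`; in
characteristic `p` we lift the coefficients to the torsion-free ring `MvPolynomial k ℤ`.
-/

set_option autoImplicit false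

noncomputable section

namespace Fermat.Agent.ES.I2aux

open HahnSeries ModularCurve Fermat.Agent.S28.Deriv

section Ring

variable {R : Type*} [CommRing R]

theorem res_coeff_zero_thetaFun (x : LaurentSeries R) : (thetaFun x).coeff 0 = 0 := by
  rw [thetaFun_coeff]
  simp

theorem res_coeff_intCast_mul (N : ℤ) (x : LaurentSeries R) (i : ℤ) :
    ((N : LaurentSeries R) * x).coeff i = (N : R) * x.coeff i := by
  have h : (N : LaurentSeries R) = HahnSeries.C (N : R) := (map_intCast HahnSeries.C N).symm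
  rw [h, HahnSeries.C_mul_eq_smul, HahnSeries.coeff_smul, smul_eq_mul]

/-- `θ (W⁻¹) = - W⁻¹ W⁻¹ θ W` for a unit `W`. -/
theorem res_thetaFun_inv (W : (LaurentSeries R)ˣ) :
    thetaFun ((W⁻¹ : (LaurentSeries R)ˣ) : LaurentSeries R) =
      -(((W⁻¹ : (LaurentSeries R)ˣ) : LaurentSeries R) * ((W⁻¹ : (LaurentSeries R)ˣ) : LaurentSeries R)
        * thetaFun (W : LaurentSeries R)) := by
  have h1 : thetaFun ((W : LaurentSeries R) * ((W⁻¹ : (LaurentSeries R)ˣ) : LaurentSeries R)) = 0 := by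
    rw [Units.mul_inv, thetaFun_one]
  rw [thetaFun_mul] at h1
  have h2 : ((W⁻¹ : (LaurentSeries R)ˣ) : LaurentSeries R) *
      ((W : LaurentSeries R) * thetaFun ((W⁻¹ : (LaurentSeries R)ˣ) : LaurentSeries R) +
        ((W⁻¹ : (LaurentSeries R)ˣ) : LaurentSeries R) * thetaFun (W : LaurentSeries R)) = 0 := by
    rw [h1, mul_zero]
  rw [mul_add, ← mul_assoc, Units.inv_mul, one_mul] at h2
  rw [eq_neg_iff_add_eq_zero, ← h2]
  ring

/-- Leibniz rule for integer powers of a unit. -/
theorem res_thetaFun_zpow (W : (LaurentSeries R)ˣ) (N : ℤ) :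
    thetaFun ((W ^ N : (LaurentSeries R)ˣ) : LaurentSeries R) =
      (N : LaurentSeries R) * ((W ^ (N - 1) : (LaurentSeries R)ˣ) : LaurentSeries R) *
        thetaFun (W : LaurentSeries R) := by
  induction N using Int.induction_on with
  | zero => simp
  | succ n ih =>
    have e1 : ((W ^ ((n : ℤ) + 1) : (LaurentSeries R)ˣ) : LaurentSeries R) =
        ((W ^ (n : ℤ) : (LaurentSeries R)ˣ) : LaurentSeries R) * (W : LaurentSeries R) := by
      rw [zpow_add_one, Units.val_mul]
    have e2 : ((W ^ (n : ℤ) : (LaurentSeries R)ˣ) : LaurentSeries R) =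
        ((W ^ ((n : ℤ) - 1) : (LaurentSeries R)ˣ) : LaurentSeries R) * (W : LaurentSeries R) := by
      rw [← Units.val_mul, ← zpow_add_one, sub_add_cancel]
    rw [e1, thetaFun_mul, ih, add_sub_cancel_right]
    push_cast
    rw [e2]
    ring
  | pred n ih =>
    have e1 : ((W ^ (-(n : ℤ) - 1) : (LaurentSeries R)ˣ) : LaurentSeries R) =
        ((W ^ (-(n : ℤ)) : (LaurentSeries R)ˣ) : LaurentSeries R) *
          ((W⁻¹ : (LaurentSeries R)ˣ) : LaurentSeries R) := by
      rw [← Units.val_mul, ← zpow_sub_one]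
    have e2 : ((W ^ (-(n : ℤ) - 1 - 1) : (LaurentSeries R)ˣ) : LaurentSeries R) =
        ((W ^ (-(n : ℤ)) : (LaurentSeries R)ˣ) : LaurentSeries R) *
          ((W⁻¹ : (LaurentSeries R)ˣ) : LaurentSeries R) *
          ((W⁻¹ : (LaurentSeries R)ˣ) : LaurentSeries R) := by
      rw [← Units.val_mul, ← Units.val_mul, ← zpow_sub_one, ← zpow_sub_one]
    rw [e1] at ih
    rw [e2, e1, thetaFun_mul, ih, res_thetaFun_inv]
    push_cast
    ring

/-- over a torsion-free ring, `a₀ (W ^ n θ W) = 0` for `n ≠ -1` -/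
theorem res_unit_of_torsionFree (htf : ∀ (N : ℤ) (s : R), N ≠ 0 → (N : R) * s = 0 → s = 0)
    (W : (LaurentSeries R)ˣ) (n : ℤ) (hn : n ≠ -1) :
    (((W ^ n : (LaurentSeries R)ˣ) : LaurentSeries R) * thetaFun (W : LaurentSeries R)).coeff 0
      = 0 := by
  have h := res_thetaFun_zpow W (n + 1)
  rw [add_sub_cancel_right] at h
  have h0 := congrArg (fun x : LaurentSeries R => x.coeff 0) h
  simp only [res_coeff_zero_thetaFun] at h0
  rw [mul_assoc, res_coeff_intCast_mul] at h0
  refine htf (n + 1) _ ?_ h0.symm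
  intro h1
  apply hn
  omega

end Ring

section Lift

open scoped Classical

variable {k : Type*} [Field k]

/-- the specialisation `MvPolynomial k ℤ → k`, `X a ↦ a` -/
def resLiftHom (k : Type*) [Field k] : MvPolynomial k ℤ →+* k :=
  MvPolynomial.eval₂Hom (Int.castRingHom k) id

theorem resLiftHom_X (a : k) : resLiftHom k (MvPolynomial.X a) = a := by
  simp [resLiftHom]

omit [Field k] in
theorem resLift_torsionFree (N : ℤ) (s : MvPolynomial k ℤ) (hN : N ≠ 0)
    (h : (N : MvPolynomial k ℤ) * s = 0) : s = 0 := by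
  rcases mul_eq_zero.1 h with h | h
  · exact absurd (Int.cast_eq_zero.1 h) hN
  · exact h

/-- a coefficientwise lift of `τ` to `MvPolynomial k ℤ` with leading coefficient `1` -/
def resLiftSeries (τ : LaurentSeries k) : LaurentSeries (MvPolynomial k ℤ) where
  coeff i := if i = τ.order then 1 else if τ.coeff i = 0 then 0 else MvPolynomial.X (τ.coeff i)
  isPWO_support' := by
    refine (τ.isPWO_support.union (Set.isPWO_singleton τ.order)).mono ?_
    intro i hi
    simp only [Function.mem_support, ne_eq] at hi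
    by_cases h1 : i = τ.order
    · exact Or.inr h1
    · refine Or.inl ?_
      rw [HahnSeries.mem_support]
      intro h2
      apply hi
      rw [if_neg h1, if_pos h2]

theorem resLiftSeries_coeff (τ : LaurentSeries k) (i : ℤ) :
    (resLiftSeries τ).coeff i =
      if i = τ.order then 1 else if τ.coeff i = 0 then 0 else MvPolynomial.X (τ.coeff i) := rfl

theorem resLiftSeries_order (τ : LaurentSeries k) : (resLiftSeries τ).order = τ.order := by
  have h1 : (resLiftSeries τ).coeff τ.order ≠ 0 := by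
    rw [resLiftSeries_coeff, if_pos rfl]
    exact one_ne_zero
  refine le_antisymm (HahnSeries.order_le_of_coeff_ne_zero h1) ?_
  by_contra hlt
  rw [not_le] at hlt
  have h2 : (resLiftSeries τ).coeff (resLiftSeries τ).order ≠ 0 := fun h =>
    (HahnSeries.ne_zero_of_coeff_ne_zero h1) (HahnSeries.coeff_order_eq_zero.1 h)
  apply h2
  rw [resLiftSeries_coeff, if_neg hlt.ne, if_pos (HahnSeries.coeff_eq_zero_of_lt_order hlt)]

theorem resLiftSeries_isUnit (τ : LaurentSeries k) : IsUnit (resLiftSeries τ) := by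
  refine HahnSeries.isUnit_of_isUnit_leadingCoeff_AddUnitOrder ?_ ?_
  · rw [HahnSeries.leadingCoeff_eq, resLiftSeries_order, resLiftSeries_coeff, if_pos rfl]
    exact isUnit_one
  · exact AddGroup.isAddUnit _

theorem coeffMap_resLiftSeries (τ : LaurentSeries k) (h1 : τ.coeff τ.order = 1) :
    coeffMap (resLiftHom k) (resLiftSeries τ) = τ := by
  ext i
  rw [coeffMap_coeff, resLiftSeries_coeff]
  split_ifs with h2 h3
  · rw [map_one, h2, h1]
  · rw [map_zero, h3]
  · rw [resLiftHom_X]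

/-- `a₀ (τ ^ n θ τ) = 0` for `n ≠ -1`, normalised case -/
theorem res_zpow_mul_theta_of_monic (τ : LaurentSeries k) (h1 : τ.coeff τ.order = 1) (n : ℤ)
    (hn : n ≠ -1) : (τ ^ n * thetaFun τ).coeff 0 = 0 := by
  set W : (LaurentSeries (MvPolynomial k ℤ))ˣ := (resLiftSeries_isUnit τ).unit with hW
  have hWv : (W : LaurentSeries (MvPolynomial k ℤ)) = resLiftSeries τ := IsUnit.unit_spec _
  have h2 := res_unit_of_torsionFree (R := MvPolynomial k ℤ)
    (fun N s hN h => resLift_torsionFree N s hN h) W n hn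
  have h3 := congrArg (resLiftHom k) h2
  rw [map_zero, ← coeffMap_coeff, map_mul, ← thetaFun_coeffMap, hWv, coeffMap_resLiftSeries τ h1]
    at h3
  have h4 : coeffMap (resLiftHom k) ((W ^ n : (LaurentSeries (MvPolynomial k ℤ))ˣ) :
      LaurentSeries (MvPolynomial k ℤ)) = τ ^ n := by
    have h5 : (Units.map (coeffMap (resLiftHom k)).toMonoidHom W : LaurentSeries k) = τ := by
      rw [Units.coe_map]
      show coeffMap (resLiftHom k) (W : LaurentSeries (MvPolynomial k ℤ)) = τ
      rw [hWv, coeffMap_resLiftSeries τ h1]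
    have h6 : coeffMap (resLiftHom k) ((W ^ n : (LaurentSeries (MvPolynomial k ℤ))ˣ) :
        LaurentSeries (MvPolynomial k ℤ)) =
        ((Units.map (coeffMap (resLiftHom k)).toMonoidHom W ^ n : (LaurentSeries k)ˣ) :
          LaurentSeries k) := by
      rw [← map_zpow, Units.coe_map]
      rfl
    rw [h6, Units.val_zpow_eq_zpow_val, h5]
  rw [h4] at h3
  exact h3

end Lift

section Field

variable {k : Type*} [Field k]

theorem res_coeff_C_mul (c : k) (x : LaurentSeries k) (i : ℤ) :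
    ((HahnSeries.C c : LaurentSeries k) * x).coeff i = c * x.coeff i := by
  rw [HahnSeries.C_mul_eq_smul, HahnSeries.coeff_smul, smul_eq_mul]

/-- `a₀ (τ ^ n θ τ) = 0` for `n ≠ -1`, any characteristic. -/
theorem res_zpow_mul_theta_of_ne (τ : LaurentSeries k) (hτ : τ ≠ 0) (n : ℤ) (hn : n ≠ -1) :
    (τ ^ n * thetaFun τ).coeff 0 = 0 := by
  set c := τ.coeff τ.order with hc
  have hc0 : c ≠ 0 := fun h => hτ (HahnSeries.coeff_order_eq_zero.1 h)
  set τ₁ : LaurentSeries k := HahnSeries.C c⁻¹ * τ with hτ₁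
  have hτeq : τ = HahnSeries.C c * τ₁ := by
    rw [hτ₁, ← mul_assoc, ← map_mul, mul_inv_cancel₀ hc0, map_one, one_mul]
  have hτ₁0 : τ₁ ≠ 0 := by
    intro h
    apply hτ
    rw [hτeq, h, mul_zero]
  have hco : ∀ i, τ₁.coeff i = c⁻¹ * τ.coeff i := fun i => res_coeff_C_mul _ _ _
  have ho : τ₁.order = τ.order := by
    refine le_antisymm (HahnSeries.order_le_of_coeff_ne_zero ?_)
      (HahnSeries.order_le_of_coeff_ne_zero ?_)
    · rw [hco, ← hc, inv_mul_cancel₀ hc0]
      exact one_ne_zero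
    · intro h
      have h2 : τ₁.coeff τ₁.order = 0 := by rw [hco, h, mul_zero]
      exact hτ₁0 (HahnSeries.coeff_order_eq_zero.1 h2)
  have h1 : τ₁.coeff τ₁.order = 1 := by
    rw [ho, hco, ← hc, inv_mul_cancel₀ hc0]
  have key := res_zpow_mul_theta_of_monic τ₁ h1 n hn
  have h2 : τ ^ n * thetaFun τ =
      HahnSeries.C (c ^ n * c) * (τ₁ ^ n * thetaFun τ₁) := by
    conv_lhs => rw [hτeq]
    rw [mul_zpow, thetaFun_mul, thetaFun_C, mul_zero, add_zero, map_mul, map_zpow₀]
    ring
  rw [h2, res_coeff_C_mul, key, mul_zero]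

/-- `a₀ (τ⁻¹ θ τ) = ord τ`. -/
theorem res_inv_mul_theta (τ : LaurentSeries k) (hτ : τ ≠ 0) :
    (τ⁻¹ * thetaFun τ).coeff 0 = ((τ.order : ℤ) : k) := by
  set m : k := ((τ.order : ℤ) : k) with hm
  set ρ : LaurentSeries k := thetaFun τ - HahnSeries.C m * τ with hρ
  have hρco : ∀ i, ρ.coeff i = ((i : k) - m) * τ.coeff i := by
    intro i
    rw [hρ, HahnSeries.coeff_sub, thetaFun_coeff, res_coeff_C_mul]
    ring
  have hθ : thetaFun τ = HahnSeries.C m * τ + ρ := by rw [hρ]; ring
  have h1 : τ⁻¹ * thetaFun τ = HahnSeries.C m + τ⁻¹ * ρ := by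
    rw [hθ, mul_add, ← mul_assoc, mul_comm τ⁻¹ (HahnSeries.C m), mul_assoc, inv_mul_cancel₀ hτ,
      mul_one]
  have h2 : (τ⁻¹ * ρ).coeff 0 = 0 := by
    by_cases hρ0 : ρ = 0
    · rw [hρ0, mul_zero, HahnSeries.coeff_zero]
    · have hlt : τ.order < ρ.order := by
        by_contra hle
        rw [not_lt] at hle
        have h3 : ρ.coeff ρ.order ≠ 0 := fun h => hρ0 (HahnSeries.coeff_order_eq_zero.1 h)
        apply h3
        rw [hρco]
        rcases lt_or_eq_of_le hle with h | h
        · rw [HahnSeries.coeff_eq_zero_of_lt_order h, mul_zero]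
        · rw [h, hm, sub_self, zero_mul]
      have hinv0 : τ⁻¹ ≠ 0 := inv_ne_zero hτ
      have ho1 : τ.order + (τ⁻¹).order = 0 := by
        rw [← HahnSeries.order_mul hτ hinv0, mul_inv_cancel₀ hτ, HahnSeries.order_one]
      have ho2 : (τ⁻¹ * ρ).order = (τ⁻¹).order + ρ.order := HahnSeries.order_mul hinv0 hρ0
      refine HahnSeries.coeff_eq_zero_of_lt_order ?_
      rw [ho2]
      omega
  rw [h1, HahnSeries.coeff_add, h2, add_zero]
  exact HahnSeries.coeff_single_same 0 m

/-- **Formal residues.**  For `τ ≠ 0` in `k((q))` (any characteristic) and `n : ℤ`: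
`a₀ (τ ^ n · θ τ) = ord τ` if `n = -1` and `0` otherwise. -/
theorem res_zpow_mul_theta (τ : LaurentSeries k) (hτ : τ ≠ 0) (n : ℤ) :
    (τ ^ n * thetaFun τ).coeff 0 = if n = -1 then ((τ.order : ℤ) : k) else 0 := by
  split_ifs with h
  · rw [h, zpow_neg_one]
    exact res_inv_mul_theta τ hτ
  · exact res_zpow_mul_theta_of_ne τ hτ n h

/-- residues of a Laurent polynomial in `τ`: `a₀ ((Σ cₙ τⁿ) · θ τ) = c₋₁ · ord τ`. -/
theorem res_laurentPoly_mul_theta (τ : LaurentSeries k) (hτ : τ ≠ 0) (c : ℤ →₀ k) :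
    ((∑ n ∈ c.support, HahnSeries.C (c n) * τ ^ n) * thetaFun τ).coeff 0 =
      c (-1) * ((τ.order : ℤ) : k) := by
  classical
  rw [Finset.sum_mul, HahnSeries.coeff_sum]
  have h1 : ∀ n ∈ c.support, (HahnSeries.C (c n) * τ ^ n * thetaFun τ).coeff 0 =
      if n = -1 then c (-1) * ((τ.order : ℤ) : k) else 0 := by
    intro n _
    rw [mul_assoc, res_coeff_C_mul, res_zpow_mul_theta τ hτ n]
    split_ifs with h
    · rw [h]
    · rw [mul_zero]
  rw [Finset.sum_congr rfl h1, Finset.sum_ite_eq' c.support (-1)]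
  split_ifs with h
  · rfl
  · rw [Finsupp.notMem_support_iff.1 h, zero_mul]

end Field

end Fermat.Agent.ES.I2aux
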