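import Fermat.Agent.ES.M.Plan

/-!
# ES / I2aux: the target statement

`(I2)` (`dim W_n ≤ n + 1 - g`) for `ℓ ∈ {2, 3}`, at the levels `N` divisible by the auxiliary
prime `5 - ℓ` (the Hauptmodul line of `X₀(5 - ℓ)` replaces the `j`-line).  Consumer:
`ES/M/Final.lean`.
-/

set_option autoImplicit false

noncomputable section

namespace Fermat.Agent.ES.M

open Fermat.Agent.S24

/-- `(I2)` for `ℓ ∈ {2, 3}`, at the levels divisible by the auxiliary prime `5 - ℓ`. -/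
def StmtI2AuxAll : Prop :=
  ∀ (N : ℕ) [NeZero N] (ℓ : ℕ), ℓ.Prime → ℓ < 5 → ¬ ℓ ∣ N → (5 - ℓ) ∣ N →
    ∀ A : ValuationSubring Kb, A.LiesOverPrime ℓ → StmtI2 N A

end Fermat.Agent.ES.M
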