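import Fermat.Agent.ES.I2aux.Plan
import Fermat.Agent.ES.I2.Core
import Fermat.Agent.INJ.InjDescentAux
import Fermat.Agent.S28.LaurentRank
import Fermat.Agent.S28.UpperBound

/-!
# ES / I2aux — piece `aux-Const`: `W ∩ q k[[q]] = 0`

`stmtConstGlue : StmtConstGlue` (`= StmtTN → StmtS2All → StmtTauAll → StmtConstAll`).

The norm argument (`I2.const_core`): for `w ∈ W` vanishing at `q = 0`, the product of the
`τ_i w` is a polynomial in `J = j̄(Q^N)` (TN), it vanishes at `Q = 0` (the factor `i₀` does, the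
others have no poles by S2), so it is `0`; the `τ_i` are injective, so `w = 0`.
-/

set_option autoImplicit false

noncomputable section

namespace Fermat.Agent.ES.I2aux

open ModularCurve AlgebraicCurve HahnSeries Fermat.Agent.ES Fermat.Agent.S24 Fermat.Agent.ES.M
open Fermat.Agent.ES.I2

/-- `f(Q^N)` vanishes at `Q = 0` if `f` vanishes at `q = 0` -/
theorem auxConst_isPos_qExpand {k : Type*} [Field k] (N : ℕ) [NeZero N] {w : LaurentSeries k}
    (hw : ∀ m : ℤ, m ≤ 0 → w.coeff m = 0) : IsPos (qExpand k N w) := by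
  intro m hm
  by_cases hd : (N : ℤ) ∣ m
  · obtain ⟨m', rfl⟩ := hd
    rw [qExpand_coeff_mul]
    apply hw
    have hN : (0 : ℤ) < N := by exact_mod_cast Nat.pos_of_ne_zero (NeZero.ne N)
    by_contra hpos
    push Not at hpos
    have : 0 < (N : ℤ) * m' := mul_pos hN hpos
    omega
  · exact qExpand_coeff_of_not_dvd N w hd

/-- piece `aux-Const`. -/
theorem stmtConstGlue : StmtConstGlue := by
  intro hTN hS2 hTau N _ ℓ hℓ hℓN A hA w hw hpos
  haveI : Fact ℓ.Prime := ⟨hℓ⟩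
  haveI : CharP (kA A) ℓ := kron_charP_residueField hℓ hA
  haveI : PerfectRing (kA A) ℓ := Fermat.Agent.INJ.nf_perfectRing_residueField A ℓ
  have hNk : ((N : ℕ) : kA A) ≠ 0 := by
    rw [Ne, CharP.cast_eq_zero_iff (kA A) ℓ]
    exact hℓN
  obtain ⟨hint, hreg⟩ := hS2 N ℓ hℓ hℓN A hA
  obtain ⟨τ, i₀, hτ⟩ := hTau N ℓ hℓ hℓN A hA
  obtain ⟨-, ⟨P, hP⟩⟩ := hTN (kA A) ℓ N hNk τ hτ.inj hτ.jmap ⟨w, hw.1⟩ (hint w hw)
  have hJ : (qExpand (kA A) N (jqModC (kA A))).order < 0 := by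
    rw [Fermat.Agent.S28.order_qExpand, Fermat.Agent.S28.UB.jqModC_order]
    have hN : (0 : ℤ) < N := by exact_mod_cast Nat.pos_of_ne_zero (NeZero.ne N)
    omega
  have hP0 : P = 0 := by
    refine const_core hJ i₀ (fun i => τ i ⟨w, hw.1⟩) (fun i hi => hreg τ i₀ hτ w hw i hi) ?_ P hP
    rw [hτ.infty, iotaK_apply]
    exact auxConst_isPos_qExpand N hpos
  rw [hP0, map_zero] at hP
  obtain ⟨i, -, hi⟩ := Finset.prod_eq_zero_iff.1 hP
  have h0 : (⟨w, hw.1⟩ : ↥(modularFunctionFieldFullC (kA A) N)) = 0 :=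
    (map_eq_zero_iff (τ i) (τ i).toRingHom.injective).1 hi
  exact congrArg Subtype.val h0


end Fermat.Agent.ES.I2aux
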