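import Fermat.Agent.ES.I2aux.Plan3
import Fermat.Agent.INJ.GaussHaupt

/-!
# ES / I2aux — aux-Line: the Hauptmodul of `X₀(5 - ℓ)` in characteristic `ℓ ∈ {2, 3}`

`stmtAuxLine : StmtAuxLine` (interface `ES/I2aux/Plan3.lean`).

* `ℓ = 3`: `h = hm2 k`, `j h² = (h + 256)³`; in characteristic `3` this reads
  `h³ - j h² + 1 = 0`, and for `s = h⁻¹`: `s³ - j s + 1 = 0`.
* `ℓ = 2`: `h = hm3 k`, `j h³ = (h + 27) (h + 243)³`; in characteristic `2` this reads
  `h⁴ - j h³ + 1 = 0`, and for `s = h⁻¹`: `s⁴ - j s + 1 = 0`.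
-/

set_option autoImplicit false

noncomputable section

namespace Fermat.Agent.ES.I2aux

open ModularCurve AlgebraicCurve HahnSeries Fermat.Agent.ES Fermat.Agent.S24 Fermat.Agent.ES.M
open Fermat.Agent.ES.I2 Fermat.Agent.S28.Deriv Fermat.Agent.INJ

/-- a monic trinomial relation `z ^ n - j z ^ m + 1 = 0`, `m < n`, is an integrality relation
over `k[j]`. -/
theorem auxLine_intJ_of_trinomial {k : Type*} [Field k] (j z : LaurentSeries k) (n m : ℕ)
    (hmn : m < n) (h : z ^ n - j * z ^ m + 1 = 0) : IntJ j z := by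
  have hmon : (Polynomial.X ^ n +
      (-(Polynomial.C (Polynomial.X : Polynomial k) * Polynomial.X ^ m) + 1) :
      Polynomial (Polynomial k)).Monic := by
    refine Polynomial.monic_X_pow_add ?_
    refine lt_of_le_of_lt (Polynomial.degree_add_le _ _) (max_lt ?_ ?_)
    · rw [Polynomial.degree_neg]
      refine lt_of_le_of_lt (Polynomial.degree_C_mul_X_pow_le _ _) ?_
      exact WithBot.coe_lt_coe.2 hmn
    · refine lt_of_le_of_lt Polynomial.degree_one_le ?_
      exact_mod_cast Nat.zero_lt_of_lt hmn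
  refine ⟨_, hmon, ?_⟩
  rw [Polynomial.eval₂_add, Polynomial.eval₂_X_pow, Polynomial.eval₂_add, Polynomial.eval₂_neg,
    Polynomial.eval₂_mul, Polynomial.eval₂_C, Polynomial.eval₂_X_pow, Polynomial.eval₂_one]
  simp only [AlgHom.toRingHom_eq_coe, RingHom.coe_coe, Polynomial.aeval_X]
  rw [← h]
  ring

theorem auxLine_natCast_eq_zero {k : Type*} [Field k] (ℓ : ℕ) [CharP k ℓ] :
    ((ℓ : ℕ) : LaurentSeries k) = 0 := by
  have h0 : ((ℓ : ℕ) : k) = 0 := CharP.cast_eq_zero k ℓ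
  have h1 : ((ℓ : ℕ) : LaurentSeries k) = HahnSeries.C ((ℓ : ℕ) : k) := by
    rw [map_natCast]
  rw [h1, h0, map_zero]

/-- the two integrality relations from `j h² = (h + 256)³` in characteristic `3`. -/
theorem auxLine_rel_two {L : Type*} [Field L] (h3 : (3 : L) = 0) (j h s : L)
    (hrel : j * h ^ 2 = (h + 256) ^ 3) (hinv : h * s = 1) :
    h ^ 3 - j * h ^ 2 + 1 = 0 ∧ s ^ 3 - j * s ^ 1 + 1 = 0 := by
  have hu : (h + 256) * s = 1 + 256 * s := by rw [add_mul, hinv]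
  have e' : j * s = (1 + 256 * s) ^ 3 := by
    calc j * s = j * s * (h * s) ^ 2 := by rw [hinv]; ring
      _ = (j * h ^ 2) * s ^ 3 := by ring
      _ = ((h + 256) * s) ^ 3 := by rw [hrel]; ring
      _ = (1 + 256 * s) ^ 3 := by rw [hu]
  constructor
  · linear_combination (-1 : L) * hrel - (256 * h ^ 2 + 65536 * h + 5592405) * h3
  · linear_combination (-1 : L) * e' - (256 * s + 65536 * s ^ 2 + 5592405 * s ^ 3) * h3

/-- the two integrality relations from `j h³ = (h + 27) (h + 243)³` in characteristic `2`. -/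
theorem auxLine_rel_three {L : Type*} [Field L] (h2 : (2 : L) = 0) (j h s : L)
    (hrel : j * h ^ 3 = (h + 27) * (h + 243) ^ 3) (hinv : h * s = 1) :
    h ^ 4 - j * h ^ 3 + 1 = 0 ∧ s ^ 4 - j * s ^ 1 + 1 = 0 := by
  have hu1 : (h + 27) * s = 1 + 27 * s := by rw [add_mul, hinv]
  have hu2 : (h + 243) * s = 1 + 243 * s := by rw [add_mul, hinv]
  have e' : j * s = (1 + 27 * s) * (1 + 243 * s) ^ 3 := by
    calc j * s = j * s * (h * s) ^ 3 := by rw [hinv]; ring
      _ = (j * h ^ 3) * s ^ 4 := by ring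
      _ = ((h + 27) * s) * ((h + 243) * s) ^ 3 := by rw [hrel]; ring
      _ = (1 + 27 * s) * (1 + 243 * s) ^ 3 := by rw [hu1, hu2]
  constructor
  · linear_combination (-1 : L) * hrel -
      (378 * h ^ 3 + 98415 * h ^ 2 + 9565938 * h + 193710244) * h2
  · linear_combination (-1 : L) * e' -
      (378 * s + 98415 * s ^ 2 + 9565938 * s ^ 3 + 193710244 * s ^ 4) * h2

/-- `ℓ = 3`, `r = 2`. -/
theorem auxLine_two (k : Type) [Field k] [CharP k 3] (N : ℕ) [NeZero N] (hN : (N : k) ≠ 0)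
    (h2 : 2 ∣ N) : IsAuxLine k N (hm2 k) := by
  have h3 : (3 : LaurentSeries k) = 0 := by
    have := auxLine_natCast_eq_zero (k := k) 3
    exact_mod_cast this
  have hrel := hm2_j k
  have hinv : hm2 k * (hm2 k)⁻¹ = 1 := mul_inv_cancel₀ (hm2_ne_zero' k)
  obtain ⟨r1, r2⟩ := auxLine_rel_two h3 _ _ _ hrel hinv
  refine ⟨hm2_mem_full k h2 hN, thetaFun_hm2_ne_zero k,
    ⟨2, (Polynomial.X + Polynomial.C 256) ^ 3, ?_⟩,
    auxLine_intJ_of_trinomial _ _ 3 2 (by norm_num) r1,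
    auxLine_intJ_of_trinomial _ _ 3 1 (by norm_num) r2⟩
  rw [hrel]
  simp only [map_pow, map_add, Polynomial.aeval_X, Polynomial.aeval_C]
  rw [map_ofNat]

/-- `ℓ = 2`, `r = 3`. -/
theorem auxLine_three (k : Type) [Field k] [CharP k 2] (N : ℕ) [NeZero N] (hN : (N : k) ≠ 0)
    (h3 : 3 ∣ N) : IsAuxLine k N (hm3 k) := by
  have h2 : (2 : LaurentSeries k) = 0 := by
    have := auxLine_natCast_eq_zero (k := k) 2
    exact_mod_cast this
  have hrel := hm3_j k
  have hinv : hm3 k * (hm3 k)⁻¹ = 1 := mul_inv_cancel₀ (hm3_ne_zero' k)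
  obtain ⟨r1, r2⟩ := auxLine_rel_three h2 _ _ _ hrel hinv
  refine ⟨hm3_mem_full k h3 hN, thetaFun_hm3_ne_zero k,
    ⟨3, (Polynomial.X + Polynomial.C 27) * (Polynomial.X + Polynomial.C 243) ^ 3, ?_⟩,
    auxLine_intJ_of_trinomial _ _ 4 3 (by norm_num) r1,
    auxLine_intJ_of_trinomial _ _ 4 1 (by norm_num) r2⟩
  rw [hrel]
  simp only [map_mul, map_pow, map_add, Polynomial.aeval_X, Polynomial.aeval_C]
  rw [map_ofNat, map_ofNat]

/-- piece `aux-Line`. -/
theorem stmtAuxLine : StmtAuxLine := by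
  intro k _ ℓ hℓ hchar N _ hN h5 hdvd
  have hp := hℓ.out
  have h2 := hp.two_le
  have hcases : ℓ = 2 ∨ ℓ = 3 := by
    interval_cases ℓ
    · exact Or.inl rfl
    · exact Or.inr rfl
    · exact absurd hp (by decide)
  rcases hcases with rfl | rfl
  · rw [show 5 - 2 = 3 from rfl, auxHK_three] at *
    exact auxLine_three k N hN hdvd
  · rw [show 5 - 3 = 2 from rfl, auxHK_two] at *
    exact auxLine_two k N hN hdvd

end Fermat.Agent.ES.I2aux
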