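import Fermat.Agent.ES.I2aux.PlanPT

/-!
# ES / I2aux — interface, part 3: the Hauptmodul line in characteristic `ℓ`

* `StmtScale` : `j h^b = G(h)` and `z` integral over `k[j]` ⇒ `h^a z` is integral over `k[h]`
  for all large `a` (the coefficients `c(j)` of the relation become polynomials in `h` after
  multiplication by a power of `h`; `Polynomial.scaleRoots`).
* `IsAuxLine k N h`, `StmtAuxLine` : the facts on `h = auxHK k (5 - ℓ)` in characteristic
  `ℓ ∈ {2, 3}`: `h ∈ F_k`, `θ h ≠ 0`, `j h^b = G(h)` (`hm2_j`, `hm3_j`), `h` and `h⁻¹` are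
  integral over `k[j]` (the constant term `256³` resp. `27 · 243³` of `G` is a unit in `k`).
* `StmtSum` : the summands `τ_i(w) τ_i(y) κ`, `κ = θ_Q J / (J (J - 1728))`, of the trace argument:
  constant term `0` for `i ≠ i₀`, and `N · a₀(w f̄)` for `i = i₀` (the same as on the `j`-line).
-/

set_option autoImplicit false
set_option synthInstance.maxHeartbeats 400000

noncomputable section

namespace Fermat.Agent.ES.I2aux

open ModularCurve AlgebraicCurve HahnSeries Fermat.Agent.ES Fermat.Agent.S24 Fermat.Agent.ES.M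
open Fermat.Agent.ES.I2 Fermat.Agent.S28.Deriv

/-- **(Scale)** integrality over `k[j]` becomes integrality over `k[h]` after multiplication by a
power of `h`, if `j h^b` is a polynomial in `h`. -/
def StmtScale : Prop :=
  ∀ (k : Type) [Field k] (j h : LaurentSeries k) (b : ℕ) (G : Polynomial k),
    j * h ^ b = Polynomial.aeval h G →
    ∀ z : LaurentSeries k, IntJ j z → ∃ a : ℕ, ∀ a' : ℕ, a ≤ a' → IntJ h (h ^ a' * z)

/-- the facts on the Hauptmodul `h` of the auxiliary line -/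
structure IsAuxLine (k : Type) [Field k] (N : ℕ) [NeZero N] (h : LaurentSeries k) : Prop where
  mem : h ∈ modularFunctionFieldFullC k N
  theta : thetaFun h ≠ 0
  rel : ∃ (b : ℕ) (G : Polynomial k), jqModC k * h ^ b = Polynomial.aeval h G
  int : IntJ (jqModC k) h
  int_inv : IntJ (jqModC k) h⁻¹

/-- **(Line)** the Hauptmodul of `X₀(5 - ℓ)` in characteristic `ℓ ∈ {2, 3}`. -/
def StmtAuxLine : Prop :=
  ∀ (k : Type) [Field k] (ℓ : ℕ) [Fact ℓ.Prime] [CharP k ℓ] (N : ℕ) [NeZero N],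
    (N : k) ≠ 0 → ℓ < 5 → (5 - ℓ) ∣ N → IsAuxLine k N (auxHK k (5 - ℓ))

/-- **(Sum)** the summands of the trace argument (characteristic `ℓ ∤ N`): for `w ∈ W`, a cusp
form `f` with integral `q`-expansion `z`, and `y ∈ F_k` with `y θj̄ = f̄ j̄ (j̄ - 1728)` whose
images `τ_i y` have `Q`-order `> -N`: with `J = j̄(Q^N)`, the series
`τ_i(w) τ_i(y) θ_Q J / (J (J - 1728))` has constant term `0` for `i ≠ i₀`, and `N · a₀(w f̄)` for
`i = i₀`. -/
def StmtSum (N : ℕ) [NeZero N] (A : ValuationSubring Kb) : Prop :=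
  ∀ (τ : Fin (dedekindPsi N) →
      (↥(modularFunctionFieldFullC (kA A) N) →ₐ[kA A] LaurentSeries (kA A)))
    (i₀ : Fin (dedekindPsi N)), IsTau N A τ i₀ →
    ∀ (w : LaurentSeries (kA A)) (hw : InW N A w) (fq : LaurentSeries (kA A))
      (y : ↥(modularFunctionFieldFullC (kA A) N)),
      (y : LaurentSeries (kA A)) * thetaFun (jqModC (kA A)) =
        fq * jqModC (kA A) * (jqModC (kA A) - 1728) →
      (∀ i, ∀ m : ℤ, m ≤ -(N : ℤ) → (τ i y).coeff m = 0) →
      (∀ i, i ≠ i₀ →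
        (τ i ⟨w, hw.1⟩ * τ i y * (thetaFun (qExpand (kA A) N (jqModC (kA A))) /
          (qExpand (kA A) N (jqModC (kA A)) *
            (qExpand (kA A) N (jqModC (kA A)) - 1728)))).coeff 0 = 0) ∧
      (τ i₀ ⟨w, hw.1⟩ * τ i₀ y * (thetaFun (qExpand (kA A) N (jqModC (kA A))) /
          (qExpand (kA A) N (jqModC (kA A)) *
            (qExpand (kA A) N (jqModC (kA A)) - 1728)))).coeff 0 = (N : kA A) * (w * fq).coeff 0

def StmtSumAll : Prop :=
  ∀ (N : ℕ) [NeZero N] (ℓ : ℕ), ℓ.Prime → ¬ ℓ ∣ N →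
    ∀ A : ValuationSubring Kb, A.LiesOverPrime ℓ → StmtSum N A

/-- piece `aux-Sum` -/
def StmtSumGlue : Prop := StmtS2All → StmtSumAll

end Fermat.Agent.ES.I2aux

namespace Fermat.Agent.ES.I2aux

open ModularCurve AlgebraicCurve HahnSeries Fermat.Agent.ES Fermat.Agent.S24 Fermat.Agent.ES.M
open Fermat.Agent.ES.I2 Fermat.Agent.S28.Deriv

/-- **(Link)** the chain rule between the `h`-line and the `j`-line under an embedding `τ` over
`k(j̄)`: with `e = τ h`, `J = j̄(Q^N)`, `y θj̄ = f̄ j̄ (j̄ - 1728)` and `y_h θh = f̄ (h - c)`: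

  `τ(y_h) / (e - c) · θ_Q e = τ(y) · θ_Q J / (J (J - 1728))`.

(`j̄ h^b = G(h)` gives `θj̄ h^(b+1) = (h G'(h) - b G(h)) θh` in `k((q))`, and the same for
`(J, e)` in `k((Q))`; then cancel.) -/
def StmtLink : Prop :=
  ∀ (k : Type) [Field k] (N : ℕ) [NeZero N]
    (τ : ↥(modularFunctionFieldFullC k N) →ₐ[k] LaurentSeries k),
    τ ⟨jqModC k, jqModC_mem_full k N⟩ = qExpand k N (jqModC k) →
    ∀ (h : LaurentSeries k) (hh : IsAuxLine k N h) (c : k) (fq : LaurentSeries k)
      (y yh : ↥(modularFunctionFieldFullC k N)),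
      (y : LaurentSeries k) * thetaFun (jqModC k) = fq * jqModC k * (jqModC k - 1728) →
      (yh : LaurentSeries k) * thetaFun h = fq * (h - HahnSeries.C c) →
      τ yh / (τ ⟨h, hh.mem⟩ - HahnSeries.C c) * thetaFun (τ ⟨h, hh.mem⟩) =
        τ y * (thetaFun (qExpand k N (jqModC k)) /
          (qExpand k N (jqModC k) * (qExpand k N (jqModC k) - 1728)))

end Fermat.Agent.ES.I2aux
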