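/-
ES / I2aux, piece `aux-Link` (helper83): the chain rule between the `h`-line and the `j`-line
under an embedding `τ` over `k(j̄)`.

`stmtLink : StmtLink` (`ES/I2aux/Plan3.lean`).

`j̄ h^b = G(h)` gives `θj̄ · h^(b+1) = (h G'(h) - b G(h)) θh` (`auxLink_chain`), in `k((q))` for
`(j̄, h)` and in `k((Q))` for `(J, e) = (τ j̄, τ h)`.  From `y θj̄ = f̄ j̄ (j̄ - 1728)` and
`y_h θh = f̄ (h - c)`: `y (h - c) P = y_h j̄ (j̄ - 1728) h^(b+1)`, `P = h G'(h) - b G(h)`, an identity
in `F_k`; apply `τ` and use the chain rule for `(J, e)`.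
-/
import Fermat.Agent.ES.I2aux.Plan3
import Fermat.Agent.S28.Red

set_option autoImplicit false

noncomputable section

namespace Fermat.Agent.ES.I2aux

open ModularCurve AlgebraicCurve HahnSeries Fermat.Agent.ES Fermat.Agent.S24 Fermat.Agent.ES.M
open Fermat.Agent.ES.I2 Fermat.Agent.S28.Deriv Polynomial

section

variable {k : Type} [Field k]

/-- the chain rule for `j h^b = G(h)`. -/
theorem auxLink_chain (j h : LaurentSeries k) (b : ℕ) (G : Polynomial k)
    (hG : j * h ^ b = Polynomial.aeval h G) :
    thetaFun j * h ^ (b + 1) =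
      (h * Polynomial.aeval h (derivative G) - (b : LaurentSeries k) * Polynomial.aeval h G) *
        thetaFun h := by
  have h1 := congrArg thetaFun hG
  rw [thetaFun_mul, thetaFun_pow, thetaFun_aeval] at h1
  have h2 : h * h ^ (b - 1) * (b : LaurentSeries k) = (b : LaurentSeries k) * h ^ b := by
    rcases Nat.eq_zero_or_pos b with rfl | hb
    · simp
    · have : h * h ^ (b - 1) = h ^ b := by
        rw [← pow_succ', Nat.sub_add_cancel hb]
      rw [this, mul_comm]
  have h3 : thetaFun j * h ^ (b + 1) =
      h * (j * ((b : LaurentSeries k) * h ^ (b - 1) * thetaFun h) + h ^ b * thetaFun j) -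
        j * (h * h ^ (b - 1) * (b : LaurentSeries k)) * thetaFun h := by
    rw [pow_succ]
    ring
  rw [h3, h1, h2, ← hG]
  ring

end

/-- piece `aux-Link`. -/
theorem stmtLink : StmtLink := by
  intro k _ N _ τ hτj h hh c fq y yh hy hyh
  obtain ⟨b, G, hG⟩ := hh.rel
  have hθ := hh.theta
  set j := jqModC k with hjdef
  have hjm : j ∈ modularFunctionFieldFullC k N := jqModC_mem_full k N
  -- nonvanishing
  have hj0 : j ≠ 0 := jqModC_ne_zero_of_nontrivial k
  have hjtr : Transcendental k j := Fermat.Agent.S28.red_transcendental_jqModC k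
  have hj1 : j - 1728 ≠ 0 := by
    intro h0
    have h1 : Polynomial.aeval j (X - Polynomial.C (1728 : k)) = 0 := by
      rw [map_sub, Polynomial.aeval_X, Polynomial.aeval_C, map_ofNat]
      exact h0
    have h2 := transcendental_iff.mp hjtr _ h1
    exact Polynomial.X_sub_C_ne_zero (1728 : k) h2
  have hh0 : h ≠ 0 := by
    rintro rfl
    exact hθ thetaFun_zero
  have hhc : h - HahnSeries.C c ≠ 0 := by
    intro h0
    apply hθ
    rw [sub_eq_zero.mp h0]
    exact thetaFun_C c
  -- the elements of `F_k`
  let hF : ↥(modularFunctionFieldFullC k N) := ⟨h, hh.mem⟩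
  let jF : ↥(modularFunctionFieldFullC k N) := ⟨j, hjm⟩
  set e := τ hF with he
  set J := qExpand k N j with hJ
  have hτC : ∀ a : k, τ (algebraMap k _ a) = HahnSeries.C a := fun a => by
    rw [AlgHom.commutes, algebraMap_eq_C]
  have hcoeC : ∀ a : k, ((algebraMap k ↥(modularFunctionFieldFullC k N) a :
      ↥(modularFunctionFieldFullC k N)) : LaurentSeries k) = HahnSeries.C a := fun a => by
    rw [← algebraMap_eq_C]
    rfl
  -- the chain rules
  have hch := auxLink_chain j h b G hG
  have hGe : J * e ^ b = Polynomial.aeval e G := by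
    have h1 : jF * hF ^ b = Polynomial.aeval hF G := by
      apply Subtype.ext
      have h2 : ((Polynomial.aeval hF G : ↥(modularFunctionFieldFullC k N)) : LaurentSeries k) =
          Polynomial.aeval h G := by
        have := Polynomial.aeval_algHom_apply (modularFunctionFieldFullC k N).val hF G
        exact this.symm
      rw [h2, ← hG]
      rfl
    have h3 := congrArg τ h1
    rw [map_mul, map_pow, ← Polynomial.aeval_algHom_apply, hτj] at h3
    exact h3
  have hche := auxLink_chain J e b G hGe
  -- the identity in `F_k`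
  have hI : (y : LaurentSeries k) * (h - HahnSeries.C c) *
      (h * Polynomial.aeval h (derivative G) - (b : LaurentSeries k) * Polynomial.aeval h G) =
      (yh : LaurentSeries k) * j * (j - 1728) * h ^ (b + 1) := by
    apply mul_right_cancel₀ hθ
    have e1 : (y : LaurentSeries k) * (h - HahnSeries.C c) *
        (h * Polynomial.aeval h (derivative G) - (b : LaurentSeries k) * Polynomial.aeval h G) *
        thetaFun h = (y : LaurentSeries k) * thetaFun j * (h - HahnSeries.C c) * h ^ (b + 1) := by
      rw [mul_assoc, ← hch]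
      ring
    have e2 : (yh : LaurentSeries k) * j * (j - 1728) * h ^ (b + 1) * thetaFun h =
        (yh : LaurentSeries k) * thetaFun h * (j * (j - 1728)) * h ^ (b + 1) := by ring
    rw [e1, e2, hy, hyh]
    ring
  have hIF : y * (hF - algebraMap k _ c) *
      (hF * Polynomial.aeval hF (derivative G) - (b : ↥(modularFunctionFieldFullC k N)) *
        Polynomial.aeval hF G) = yh * jF * (jF - 1728) * hF ^ (b + 1) := by
    apply Subtype.ext
    have hae : ∀ P : Polynomial k,
        ((Polynomial.aeval hF P : ↥(modularFunctionFieldFullC k N)) : LaurentSeries k) =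
          Polynomial.aeval h P := fun P =>
      (Polynomial.aeval_algHom_apply (modularFunctionFieldFullC k N).val hF P).symm
    have hnat : (((b : ↥(modularFunctionFieldFullC k N)) :
        ↥(modularFunctionFieldFullC k N)) : LaurentSeries k) = (b : LaurentSeries k) :=
      map_natCast (modularFunctionFieldFullC k N).val b
    have h1728 : (((1728 : ↥(modularFunctionFieldFullC k N)) :
        ↥(modularFunctionFieldFullC k N)) : LaurentSeries k) = (1728 : LaurentSeries k) :=
      map_ofNat (modularFunctionFieldFullC k N).val 1728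
    simp only [MulMemClass.coe_mul, AddSubgroupClass.coe_sub, SubmonoidClass.coe_pow, hae, hcoeC,
      hnat, h1728]
    exact hI
  have hτI := congrArg τ hIF
  simp only [map_mul, map_sub, map_pow, hτC, map_natCast, map_ofNat,
    ← Polynomial.aeval_algHom_apply] at hτI
  rw [show τ jF = J from hτj, ← he] at hτI
  -- nonvanishing after `τ`
  have hinj := τ.toRingHom.injective
  have heC : e - HahnSeries.C c ≠ 0 := by
    intro h0
    have h1 : τ (hF - algebraMap k _ c) = 0 := by rw [map_sub, hτC]; exact h0
    have h2 : hF - algebraMap k _ c = 0 := hinj (by rw [map_zero]; exact h1)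
    apply hhc
    have h3 := congrArg Subtype.val h2
    rw [AddSubgroupClass.coe_sub, hcoeC] at h3
    exact h3
  have he0 : e ≠ 0 := by
    intro h0
    have h2 : hF = 0 := hinj (by rw [map_zero]; exact h0)
    exact hh0 (congrArg Subtype.val h2)
  have hJ0 : J ≠ 0 := by
    intro h0
    have h2 : jF = 0 := hinj (by rw [map_zero]; exact hτj.trans h0)
    exact hj0 (congrArg Subtype.val h2)
  have hJ1 : J - 1728 ≠ 0 := by
    intro h0
    have h1 : τ (jF - 1728) = 0 := by rw [map_sub, map_ofNat, hτj]; exact h0
    have h2 : jF - 1728 = 0 := hinj (by rw [map_zero]; exact h1)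
    apply hj1
    have h3 := congrArg Subtype.val h2
    rw [AddSubgroupClass.coe_sub] at h3
    have h1728 : (((1728 : ↥(modularFunctionFieldFullC k N)) :
        ↥(modularFunctionFieldFullC k N)) : LaurentSeries k) = (1728 : LaurentSeries k) :=
      map_ofNat (modularFunctionFieldFullC k N).val 1728
    rw [h1728] at h3
    exact h3
  -- conclusion
  show τ yh / (e - HahnSeries.C c) * thetaFun e = τ y * (thetaFun J / (J * (J - 1728)))
  rw [div_mul_eq_mul_div, ← mul_div_assoc, div_eq_div_iff heC (mul_ne_zero hJ0 hJ1)]
  apply mul_right_cancel₀ (pow_ne_zero (b + 1) he0)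
  have e1 : τ y * thetaFun J * (e - HahnSeries.C c) * e ^ (b + 1) =
      τ y * (e - HahnSeries.C c) * (thetaFun J * e ^ (b + 1)) := by ring
  rw [e1, hche]
  linear_combination (-(thetaFun e)) * hτI

end Fermat.Agent.ES.I2aux
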