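import Fermat.Agent.ES.I2aux.Plan
import Fermat.Agent.ES.I2.MFk
import Fermat.Agent.INJ.HMMem

/-!
# ES / I2aux, piece `aux-MFh` (helper24): the functions `Yh`, `Yh'` on the Hauptmodul line

`stmtMFhGlue : StmtMFhGlue` (`= StmtMFAll → StmtMFhAll`, interface `ES/I2aux/Plan.lean`).

Pure algebra on top of `StmtMF` (`Yt`, `Y1`, `Y2`), with `h = hm2Z` resp. `hm3Z`:

* `r = 2`: `Yh = Yt h / ((h + 256) (h - 512))`, `Yh' = Y2 / (h + 256)²`;
  `Yh⁶ (h + 256)⁶ = Y2³ (h + 64)³`, `Yh⁶ h² (h - 512)² = Y1² (h + 64)²`,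
  `Yh'³ (h + 256)⁶ = Y2³`, `Yh'³ h² (h - 512)² (h + 64) = Y1²`.
* `r = 3`: `Q = h² - 486 h - 19683`, `Yh = Yt h² / ((h + 243) Q)`, `Yh' = Y1 / Q`;
  `Yh⁶ (h + 243)⁶ = Y2³ h³`, `Yh⁶ Q² = Y1² (h + 27)²`,
  `Yh'² Q² = Y1²`, `Yh'² (h + 243)⁶ (h + 27)² = Y2³ h³`.

The denominators are units of `ℤ((q))` (leading coefficient `1`); the identities follow from the
modular equations `hm2Z_j`, `hm3Z_j` and their `θ`-derivatives.  Integrality over `ℚ̄[j]`: `h` is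
integral (modular equation), the two denominators of `Yh⁶` (resp. `Yh'^k`) are coprime in the
integral closure `mfhB` (their difference, resp. a remainder, is a nonzero constant), so a Bezout
relation exhibits the power as integral, hence the function.
-/

set_option autoImplicit false

noncomputable section

namespace Fermat.Agent.ES.I2aux

open ModularCurve AlgebraicCurve HahnSeries Fermat.Agent.ES Fermat.Agent.S24 Fermat.Agent.ES.M
open Fermat.Agent.ES.I2 Fermat.Agent.INJ Fermat.Agent.S28.Deriv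

/-! ### commutative algebra -/


theorem mfh_alg2 {R : Type*} [CommRing R] [IsDomain R]
    (j h θj θh f Yt Y1 Y2 ai bi : R)
    (hj : j * h ^ 2 = (h + 256) ^ 3)
    (hθ : θj * h ^ 2 + 2 * j * h * θh = 3 * (h + 256) ^ 2 * θh)
    (e1 : Yt * θj = f * j * (j - 1728))
    (e2 : Yt ^ 2 = Y2 * (j - 1728))
    (e3 : Yt ^ 3 = Y1 * j * (j - 1728))
    (ha : (h + 256) * ai = 1) (hb : (h - 512) * bi = 1) (hh : h ≠ 0) (hc : h + 64 ≠ 0) :
    (Yt * h * ai * bi) * θh = f * (h + 64) ∧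
    (Yt * h * ai * bi) ^ 2 = (h + 64) * (Y2 * ai ^ 2) ∧
    (Yt * h * ai * bi) ^ 6 * (h + 256) ^ 6 = Y2 ^ 3 * (h + 64) ^ 3 ∧
    (Yt * h * ai * bi) ^ 6 * (h ^ 2 * (h - 512) ^ 2) = Y1 ^ 2 * (h + 64) ^ 2 ∧
    (Y2 * ai ^ 2) ^ 3 * (h + 256) ^ 6 = Y2 ^ 3 ∧
    (Y2 * ai ^ 2) ^ 3 * (h ^ 2 * (h - 512) ^ 2 * (h + 64)) = Y1 ^ 2 := by
  have ha0 : h + 256 ≠ 0 := left_ne_zero_of_mul_eq_one ha
  have hb0 : h - 512 ≠ 0 := left_ne_zero_of_mul_eq_one hb
  have K1 : (j - 1728) * h ^ 2 = (h + 64) * (h - 512) ^ 2 := by linear_combination hj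
  have K2 : θj * h ^ 3 = (h + 256) ^ 2 * (h - 512) * θh := by
    linear_combination h * hθ - 2 * θh * hj
  have K3 : Yt * θh * h = f * (h + 256) * (h + 64) * (h - 512) := by
    have hne : (h + 256) ^ 2 * (h - 512) * h ≠ 0 :=
      mul_ne_zero (mul_ne_zero (pow_ne_zero 2 ha0) hb0) hh
    refine mul_left_cancel₀ hne ?_
    calc (h + 256) ^ 2 * (h - 512) * h * (Yt * θh * h)
        = Yt * h ^ 2 * ((h + 256) ^ 2 * (h - 512) * θh) := by ring
      _ = Yt * h ^ 2 * (θj * h ^ 3) := by rw [K2]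
      _ = (Yt * θj) * h ^ 5 := by ring
      _ = f * j * (j - 1728) * h ^ 5 := by rw [e1]
      _ = f * h * (j * h ^ 2) * ((j - 1728) * h ^ 2) := by ring
      _ = f * h * (h + 256) ^ 3 * ((h + 64) * (h - 512) ^ 2) := by rw [hj, K1]
      _ = _ := by ring
  have E1 : (Yt * h * ai * bi) * θh = f * (h + 64) := by
    calc (Yt * h * ai * bi) * θh = (Yt * θh * h) * ai * bi := by ring
      _ = f * (h + 64) * ((h + 256) * ai) * ((h - 512) * bi) := by rw [K3]; ring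
      _ = f * (h + 64) := by rw [ha, hb]; ring
  have E2 : (Yt * h * ai * bi) ^ 2 = (h + 64) * (Y2 * ai ^ 2) := by
    calc (Yt * h * ai * bi) ^ 2 = Yt ^ 2 * h ^ 2 * ai ^ 2 * bi ^ 2 := by ring
      _ = Y2 * ((j - 1728) * h ^ 2) * ai ^ 2 * bi ^ 2 := by rw [e2]; ring
      _ = (h + 64) * (Y2 * ai ^ 2) * ((h - 512) * bi) ^ 2 := by rw [K1]; ring
      _ = _ := by rw [hb]; ring
  have E3 : (Yt * h * ai * bi) ^ 3 * (h * (h - 512)) = Y1 * (h + 64) := by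
    calc (Yt * h * ai * bi) ^ 3 * (h * (h - 512))
        = Yt ^ 3 * h ^ 4 * ai ^ 3 * bi ^ 3 * (h - 512) := by ring
      _ = Y1 * (j * h ^ 2) * ((j - 1728) * h ^ 2) * ai ^ 3 * bi ^ 3 * (h - 512) := by
          rw [e3]; ring
      _ = Y1 * (h + 64) * ((h + 256) * ai) ^ 3 * ((h - 512) * bi) ^ 3 := by rw [hj, K1]; ring
      _ = _ := by rw [ha, hb]; ring
  have E4 : (Yt * h * ai * bi) ^ 6 * (h + 256) ^ 6 = Y2 ^ 3 * (h + 64) ^ 3 := by
    calc (Yt * h * ai * bi) ^ 6 * (h + 256) ^ 6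
        = ((Yt * h * ai * bi) ^ 2) ^ 3 * (h + 256) ^ 6 := by ring
      _ = Y2 ^ 3 * (h + 64) ^ 3 * ((h + 256) * ai) ^ 6 := by rw [E2]; ring
      _ = _ := by rw [ha]; ring
  have E5 : (Yt * h * ai * bi) ^ 6 * (h ^ 2 * (h - 512) ^ 2) = Y1 ^ 2 * (h + 64) ^ 2 := by
    calc (Yt * h * ai * bi) ^ 6 * (h ^ 2 * (h - 512) ^ 2)
        = ((Yt * h * ai * bi) ^ 3 * (h * (h - 512))) ^ 2 := by ring
      _ = _ := by rw [E3]; ring
  have E6 : (Y2 * ai ^ 2) ^ 3 * (h + 256) ^ 6 = Y2 ^ 3 := by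
    calc (Y2 * ai ^ 2) ^ 3 * (h + 256) ^ 6 = Y2 ^ 3 * ((h + 256) * ai) ^ 6 := by ring
      _ = _ := by rw [ha]; ring
  refine ⟨E1, E2, E4, E5, E6, ?_⟩
  refine mul_left_cancel₀ (pow_ne_zero 2 hc) ?_
  calc (h + 64) ^ 2 * ((Y2 * ai ^ 2) ^ 3 * (h ^ 2 * (h - 512) ^ 2 * (h + 64)))
      = ((h + 64) * (Y2 * ai ^ 2)) ^ 3 * (h ^ 2 * (h - 512) ^ 2) := by ring
    _ = (Yt * h * ai * bi) ^ 6 * (h ^ 2 * (h - 512) ^ 2) := by rw [← E2]; ring
    _ = _ := by rw [E5]; ring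

theorem mfh_alg3 {R : Type*} [CommRing R] [IsDomain R]
    (j h θj θh f Yt Y1 Y2 ai bi : R)
    (hj : j * h ^ 3 = (h + 27) * (h + 243) ^ 3)
    (hθ : θj * h ^ 3 + 3 * j * h ^ 2 * θh =
      ((h + 243) ^ 3 + 3 * (h + 27) * (h + 243) ^ 2) * θh)
    (e1 : Yt * θj = f * j * (j - 1728))
    (e2 : Yt ^ 2 = Y2 * (j - 1728))
    (e3 : Yt ^ 3 = Y1 * j * (j - 1728))
    (ha : (h + 243) * ai = 1) (hb : (h ^ 2 - 486 * h - 19683) * bi = 1) (hh : h ≠ 0) :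
    (Yt * h ^ 2 * ai * bi) * θh = f * (h + 27) ∧
    (Yt * h ^ 2 * ai * bi) ^ 3 = (h + 27) * (Y1 * bi) ∧
    (Yt * h ^ 2 * ai * bi) ^ 6 * (h + 243) ^ 6 = Y2 ^ 3 * h ^ 3 ∧
    (Yt * h ^ 2 * ai * bi) ^ 6 * (h ^ 2 - 486 * h - 19683) ^ 2 = Y1 ^ 2 * (h + 27) ^ 2 ∧
    (Y1 * bi) ^ 2 * (h ^ 2 - 486 * h - 19683) ^ 2 = Y1 ^ 2 ∧
    (Y1 * bi) ^ 2 * ((h + 243) ^ 6 * (h + 27) ^ 2) = Y2 ^ 3 * h ^ 3 := by
  have ha0 : h + 243 ≠ 0 := left_ne_zero_of_mul_eq_one ha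
  have hb0 : h ^ 2 - 486 * h - 19683 ≠ 0 := left_ne_zero_of_mul_eq_one hb
  have K1 : (j - 1728) * h ^ 3 = (h ^ 2 - 486 * h - 19683) ^ 2 := by linear_combination hj
  have K2 : θj * h ^ 4 = (h + 243) ^ 2 * (h ^ 2 - 486 * h - 19683) * θh := by
    linear_combination h * hθ - 3 * θh * hj
  have K3 : Yt * θh * h ^ 2 = f * (h + 27) * (h + 243) * (h ^ 2 - 486 * h - 19683) := by
    have hne : (h + 243) ^ 2 * (h ^ 2 - 486 * h - 19683) * h ≠ 0 :=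
      mul_ne_zero (mul_ne_zero (pow_ne_zero 2 ha0) hb0) hh
    refine mul_left_cancel₀ hne ?_
    calc (h + 243) ^ 2 * (h ^ 2 - 486 * h - 19683) * h * (Yt * θh * h ^ 2)
        = Yt * h ^ 3 * ((h + 243) ^ 2 * (h ^ 2 - 486 * h - 19683) * θh) := by ring
      _ = Yt * h ^ 3 * (θj * h ^ 4) := by rw [K2]
      _ = (Yt * θj) * h ^ 7 := by ring
      _ = f * j * (j - 1728) * h ^ 7 := by rw [e1]
      _ = f * h * (j * h ^ 3) * ((j - 1728) * h ^ 3) := by ring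
      _ = f * h * ((h + 27) * (h + 243) ^ 3) * (h ^ 2 - 486 * h - 19683) ^ 2 := by rw [hj, K1]
      _ = _ := by ring
  have E1 : (Yt * h ^ 2 * ai * bi) * θh = f * (h + 27) := by
    calc (Yt * h ^ 2 * ai * bi) * θh = (Yt * θh * h ^ 2) * ai * bi := by ring
      _ = f * (h + 27) * ((h + 243) * ai) * ((h ^ 2 - 486 * h - 19683) * bi) := by
          rw [K3]; ring
      _ = f * (h + 27) := by rw [ha, hb]; ring
  have E2 : (Yt * h ^ 2 * ai * bi) ^ 2 * (h + 243) ^ 2 = Y2 * h := by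
    calc (Yt * h ^ 2 * ai * bi) ^ 2 * (h + 243) ^ 2
        = Yt ^ 2 * h ^ 4 * ((h + 243) * ai) ^ 2 * bi ^ 2 := by ring
      _ = Y2 * h * ((j - 1728) * h ^ 3) * bi ^ 2 := by rw [e2, ha]; ring
      _ = Y2 * h * ((h ^ 2 - 486 * h - 19683) * bi) ^ 2 := by rw [K1]; ring
      _ = _ := by rw [hb]; ring
  have E3 : (Yt * h ^ 2 * ai * bi) ^ 3 = (h + 27) * (Y1 * bi) := by
    calc (Yt * h ^ 2 * ai * bi) ^ 3 = Yt ^ 3 * h ^ 6 * ai ^ 3 * bi ^ 3 := by ring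
      _ = Y1 * (j * h ^ 3) * ((j - 1728) * h ^ 3) * ai ^ 3 * bi ^ 3 := by rw [e3]; ring
      _ = (h + 27) * (Y1 * bi) * ((h + 243) * ai) ^ 3 *
            ((h ^ 2 - 486 * h - 19683) * bi) ^ 2 := by rw [hj, K1]; ring
      _ = _ := by rw [ha, hb]; ring
  have E4 : (Yt * h ^ 2 * ai * bi) ^ 6 * (h + 243) ^ 6 = Y2 ^ 3 * h ^ 3 := by
    calc (Yt * h ^ 2 * ai * bi) ^ 6 * (h + 243) ^ 6
        = ((Yt * h ^ 2 * ai * bi) ^ 2 * (h + 243) ^ 2) ^ 3 := by ring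
      _ = _ := by rw [E2]; ring
  have E6 : (Y1 * bi) ^ 2 * (h ^ 2 - 486 * h - 19683) ^ 2 = Y1 ^ 2 := by
    calc (Y1 * bi) ^ 2 * (h ^ 2 - 486 * h - 19683) ^ 2
        = Y1 ^ 2 * ((h ^ 2 - 486 * h - 19683) * bi) ^ 2 := by ring
      _ = _ := by rw [hb]; ring
  have E5 : (Yt * h ^ 2 * ai * bi) ^ 6 * (h ^ 2 - 486 * h - 19683) ^ 2
      = Y1 ^ 2 * (h + 27) ^ 2 := by
    calc (Yt * h ^ 2 * ai * bi) ^ 6 * (h ^ 2 - 486 * h - 19683) ^ 2
        = ((Yt * h ^ 2 * ai * bi) ^ 3) ^ 2 * (h ^ 2 - 486 * h - 19683) ^ 2 := by ring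
      _ = (h + 27) ^ 2 * ((Y1 * bi) ^ 2 * (h ^ 2 - 486 * h - 19683) ^ 2) := by rw [E3]; ring
      _ = _ := by rw [E6]; ring
  refine ⟨E1, E3, E4, E5, E6, ?_⟩
  calc (Y1 * bi) ^ 2 * ((h + 243) ^ 6 * (h + 27) ^ 2)
      = ((h + 27) * (Y1 * bi)) ^ 2 * (h + 243) ^ 6 := by ring
    _ = (Yt * h ^ 2 * ai * bi) ^ 6 * (h + 243) ^ 6 := by rw [← E3]; ring
    _ = _ := E4

/-! ### units of `ℤ((q))` -/

theorem mfh_isUnit_qinv : IsUnit hmQinv :=
  IsUnit.of_mul_eq_one _ hmQinv_mul_X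

theorem mfh_isUnit_phi {u : PowerSeries ℤ} (hu : PowerSeries.constantCoeff u = 1) :
    IsUnit (hmPhi u) := by
  refine IsUnit.map hmPhi ?_
  rw [PowerSeries.isUnit_iff_constantCoeff, hu]
  exact isUnit_one

theorem mfh_isUnit (n : ℕ) {u : PowerSeries ℤ} (hu : PowerSeries.constantCoeff u = 1) :
    IsUnit (hmQinv ^ n * hmPhi u) :=
  (mfh_isUnit_qinv.pow n).mul (mfh_isUnit_phi hu)

theorem mfh_lin2 (c : ℤ) :
    hm2Z + (c : LaurentSeries ℤ) =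
      hmQinv ^ 1 * hmPhi (hm2U + (c : PowerSeries ℤ) * PowerSeries.X) := by
  rw [pow_one, map_add, map_mul, mul_add, ← hm2Z, mul_left_comm, hmQinv_mul_X, mul_one,
    map_intCast]

theorem mfh_lin3 (c : ℤ) :
    hm3Z + (c : LaurentSeries ℤ) =
      hmQinv ^ 1 * hmPhi (hm3U + (c : PowerSeries ℤ) * PowerSeries.X) := by
  rw [pow_one, map_add, map_mul, mul_add, ← hm3Z, mul_left_comm, hmQinv_mul_X, mul_one,
    map_intCast]

theorem mfh_isUnit_lin2 (c : ℤ) : IsUnit (hm2Z + (c : LaurentSeries ℤ)) := by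
  rw [mfh_lin2]
  exact mfh_isUnit 1 (by simp [constantCoeff_hm2U])

theorem mfh_isUnit_lin3 (c : ℤ) : IsUnit (hm3Z + (c : LaurentSeries ℤ)) := by
  rw [mfh_lin3]
  exact mfh_isUnit 1 (by simp [constantCoeff_hm3U])

theorem mfh_isUnit_Q : IsUnit (hm3Z ^ 2 - 486 * hm3Z - 19683) := by
  have h : hm3Z ^ 2 - 486 * hm3Z - 19683 = hmQinv ^ 2 * hmPhi (hm3U ^ 2 -
      PowerSeries.C (486 : ℤ) * PowerSeries.X * hm3U -
        PowerSeries.C (19683 : ℤ) * PowerSeries.X ^ 2) := by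
    have hX := hmQinv_mul_X
    simp only [map_sub, map_mul, map_pow, map_ofNat, hm3Z]
    linear_combination (486 * hmQinv * hmPhi hm3U + 19683 * (hmQinv * hmPhi PowerSeries.X + 1)) * hX
  rw [h]
  exact mfh_isUnit 2 (by simp [constantCoeff_hm3U])


/-! ### the derivative of the modular equations -/

theorem mfh_theta_ofNat (n : ℕ) [n.AtLeastTwo] :
    thetaFun (OfNat.ofNat n : LaurentSeries ℤ) = 0 := by
  rw [← map_ofNat (HahnSeries.C (Γ := ℤ) (R := ℤ)) n]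
  exact thetaFun_C _

theorem mfh_theta2 :
    thetaFun (jqModC ℤ) * hm2Z ^ 2 + 2 * jqModC ℤ * hm2Z * thetaFun hm2Z =
      3 * (hm2Z + 256) ^ 2 * thetaFun hm2Z := by
  have h := congrArg thetaFun hm2Z_j
  rw [thetaFun_mul, thetaFun_pow, thetaFun_pow, thetaFun_add, mfh_theta_ofNat, add_zero] at h
  simp only [Nat.cast_ofNat, Nat.reduceSub, pow_one] at h
  linear_combination h

theorem mfh_theta3 :
    thetaFun (jqModC ℤ) * hm3Z ^ 3 + 3 * jqModC ℤ * hm3Z ^ 2 * thetaFun hm3Z =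
      ((hm3Z + 243) ^ 3 + 3 * (hm3Z + 27) * (hm3Z + 243) ^ 2) * thetaFun hm3Z := by
  have h := congrArg thetaFun hm3Z_j
  rw [thetaFun_mul, thetaFun_pow, thetaFun_mul, thetaFun_pow, thetaFun_add, thetaFun_add,
    mfh_theta_ofNat, mfh_theta_ofNat, add_zero] at h
  simp only [Nat.cast_ofNat, Nat.reduceSub] at h
  linear_combination h

/-! ### the integral closure of `ℚ̄[j]` in `ℚ̄((q))` -/

theorem mfh_intJ_aeval (p : Polynomial Kb) : IntJ jBar (Polynomial.aeval jBar p) :=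
  ⟨Polynomial.X - Polynomial.C p, Polynomial.monic_X_sub_C p, by
    rw [Polynomial.eval₂_sub, Polynomial.eval₂_X, Polynomial.eval₂_C]
    exact sub_self _⟩

/-- the integral closure of `ℚ̄[j]` in `ℚ̄((q))` -/
def mfhB : Subalgebra Kb (LaurentSeries Kb) where
  carrier := {z | IntJ jBar z}
  mul_mem' := fun ha hb => RingHom.IsIntegralElem.mul _ ha hb
  add_mem' := fun ha hb => RingHom.IsIntegralElem.add _ ha hb
  algebraMap_mem' := fun c => by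
    have h := mfh_intJ_aeval (Polynomial.C c)
    rw [Polynomial.aeval_C] at h
    exact h

theorem mfh_mem_B {z : LaurentSeries Kb} : z ∈ mfhB ↔ IntJ jBar z := Iff.rfl

theorem mfh_j_mem : jBar ∈ mfhB := by
  have h := mfh_intJ_aeval Polynomial.X
  rw [Polynomial.aeval_X] at h
  exact h

theorem mfh_of_pow {y : LaurentSeries Kb} {n : ℕ} (hn : 0 < n) (h : y ^ n ∈ mfhB) :
    y ∈ mfhB := by
  let _ : Algebra (Polynomial Kb) (LaurentSeries Kb) :=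
    (Polynomial.aeval jBar).toRingHom.toAlgebra
  exact IsIntegral.of_pow hn h

theorem mfh_h2_mem : hm2 Kb ∈ mfhB := by
  refine ⟨Polynomial.X ^ 3 + (Polynomial.C (768 - Polynomial.X) * Polynomial.X ^ 2 +
    Polynomial.C 196608 * Polynomial.X + Polynomial.C 16777216),
    Polynomial.monic_X_pow_add (lt_of_le_of_lt Polynomial.degree_quadratic_le (by norm_num)), ?_⟩
  have h := hm2_j Kb
  rw [← hmMem_jBar_eq] at h
  simp only [Polynomial.eval₂_add, Polynomial.eval₂_mul, Polynomial.eval₂_pow,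
    Polynomial.eval₂_X, Polynomial.eval₂_C]
  simp only [AlgHom.toRingHom_eq_coe, RingHom.coe_coe, map_sub, map_ofNat, Polynomial.aeval_X]
  linear_combination -h

theorem mfh_h3_mem : hm3 Kb ∈ mfhB := by
  refine ⟨Polynomial.X ^ 4 + (Polynomial.C (756 - Polynomial.X) * Polynomial.X ^ 3 +
    Polynomial.C 196830 * Polynomial.X ^ 2 + Polynomial.C 19131876 * Polynomial.X +
    Polynomial.C 387420489),
    Polynomial.monic_X_pow_add (lt_of_le_of_lt Polynomial.degree_cubic_le (by norm_num)), ?_⟩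
  have h := hm3_j Kb
  rw [← hmMem_jBar_eq] at h
  simp only [Polynomial.eval₂_add, Polynomial.eval₂_mul, Polynomial.eval₂_pow,
    Polynomial.eval₂_X, Polynomial.eval₂_C]
  simp only [AlgHom.toRingHom_eq_coe, RingHom.coe_coe, map_sub, map_ofNat, Polynomial.aeval_X]
  linear_combination -h

theorem mfh_bezout {y : LaurentSeries Kb} {p q : mfhB} (hc : IsCoprime p q)
    (h1 : y * (p : LaurentSeries Kb) ∈ mfhB) (h2 : y * (q : LaurentSeries Kb) ∈ mfhB) :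
    y ∈ mfhB := by
  obtain ⟨u, v, huv⟩ := hc
  have h : (u : LaurentSeries Kb) * p + v * q = 1 := by
    have := congrArg (Subtype.val) huv
    simpa using this
  have e : y = u * (y * p) + v * (y * q) := by linear_combination (-y) * h
  rw [e]
  exact add_mem (mul_mem u.2 h1) (mul_mem v.2 h2)

theorem mfh_coprime {A : Type*} [CommRing A] [Algebra Kb A] (x y z : A) (n : ℤ) (hn : n ≠ 0)
    (h : y = z * x + (n : A)) : IsCoprime x y := by
  have hu : (n : A) * algebraMap Kb A ((n : Kb)⁻¹) = 1 := by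
    rw [← map_intCast (algebraMap Kb A) n, ← map_mul,
      mul_inv_cancel₀ (Int.cast_ne_zero.mpr hn), map_one]
  refine ⟨-(algebraMap Kb A ((n : Kb)⁻¹) * z), algebraMap Kb A ((n : Kb)⁻¹), ?_⟩
  rw [h]
  linear_combination hu



/-! ### transport to `ℚ̄((q))` -/

/-- the coefficient map `ℤ((q)) → ℚ̄((q))` -/
abbrev mfhPhi : LaurentSeries ℤ →+* LaurentSeries Kb := coeffMap (Int.castRingHom Kb)

theorem mfh_phi_h2 : mfhPhi hm2Z = hm2 Kb := rfl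

theorem mfh_phi_h3 : mfhPhi hm3Z = hm3 Kb := rfl

theorem mfh_inv_mem (F : IntermediateField Kb (LaurentSeries Kb)) {x xi : LaurentSeries ℤ}
    (hx : x * xi = 1) (hm : mfhPhi x ∈ F) : mfhPhi xi ∈ F := by
  have h := congrArg mfhPhi hx
  rw [map_mul, map_one] at h
  rw [eq_inv_of_mul_eq_one_right h]
  exact inv_mem hm

theorem mfh_int_of_two {y P P' : LaurentSeries Kb} {p q : mfhB} {n : ℕ} (hn : 0 < n)
    (hc : IsCoprime p q) (h1 : y ^ n * mfhB.val p = P)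
    (h2 : y ^ n * mfhB.val q = P') (hP : P ∈ mfhB) (hP' : P' ∈ mfhB) :
    y ∈ mfhB :=
  mfh_of_pow hn (mfh_bezout hc (h1 ▸ hP) (h2 ▸ hP'))

theorem mfh_case2 (N : ℕ) [NeZero N] (h2 : 2 ∣ N) (hMF : StmtMF N) : StmtMFh N 2 := by
  intro f z hz
  obtain ⟨Yt, Y1, Y2, e1, e2, e3, ⟨mt, ct⟩, ⟨m1, c1⟩, ⟨m2, c2⟩⟩ := hMF f z hz
  obtain ⟨ai, hai⟩ := (mfh_isUnit_lin2 256).exists_right_inv
  obtain ⟨bi, hbi⟩ := (mfh_isUnit_lin2 (-512)).exists_right_inv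
  have ha : (hm2Z + 256) * ai = 1 := by
    rw [← hai]; push_cast; rfl
  have hb : (hm2Z - 512) * bi = 1 := by
    rw [← hbi]; push_cast; rw [sub_eq_add_neg]
  have hh : hm2Z ≠ 0 := by
    have := (mfh_isUnit_lin2 0).ne_zero
    rwa [Int.cast_zero, add_zero] at this
  have hc : hm2Z + 64 ≠ 0 := by
    have := (mfh_isUnit_lin2 64).ne_zero
    rwa [Int.cast_ofNat] at this
  obtain ⟨E1, E2, E4, E5, E6, E7⟩ := mfh_alg2 (jqModC ℤ) hm2Z (thetaFun (jqModC ℤ))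
    (thetaFun hm2Z) (fqZ z) Yt Y1 Y2 ai bi hm2Z_j mfh_theta2 e1 e2 e3 ha hb hh hc
  have hC : auxH 2 - ((auxC 2 : ℤ) : LaurentSeries ℤ) = hm2Z + 64 := by
    rw [auxH_two, auxC_two]; push_cast; rw [sub_neg_eq_add]
  -- memberships
  have hhF : mfhPhi hm2Z ∈ modularFunctionFieldBar N := hm2_mem N h2
  have haF : mfhPhi ai ∈ modularFunctionFieldBar N := by
    refine mfh_inv_mem _ ha ?_
    rw [map_add, map_ofNat]
    exact add_mem hhF (ofNat_mem _ 256)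
  have hbF : mfhPhi bi ∈ modularFunctionFieldBar N := by
    refine mfh_inv_mem _ hb ?_
    rw [map_sub, map_ofNat]
    exact sub_mem hhF (ofNat_mem _ 512)
  -- integrality
  have iY1 : mfhPhi Y1 ∈ mfhB := mfk_intJ_of_cuspRel N c1
  have iY2 : mfhPhi Y2 ∈ mfhB := mfk_intJ_of_cuspRel N c2
  have ih : hm2 Kb ∈ mfhB := mfh_h2_mem
  obtain ⟨hB, hBv⟩ : ∃ hB : mfhB, mfhB.val hB = hm2 Kb := ⟨⟨hm2 Kb, mfh_h2_mem⟩, rfl⟩
  have k1 : IsCoprime (hB + 256) hB :=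
    mfh_coprime _ _ 1 (-256) (by norm_num) (by push_cast; ring)
  have k2 : IsCoprime (hB + 256) (hB - 512) :=
    mfh_coprime _ _ 1 (-768) (by norm_num) (by push_cast; ring)
  have k3 : IsCoprime (hB + 256) (hB + 64) :=
    mfh_coprime _ _ 1 (-192) (by norm_num) (by push_cast; ring)
  have k4 : IsCoprime ((hB + 256) ^ 6) (hB ^ 2 * (hB - 512) ^ 2) :=
    IsCoprime.pow_left (IsCoprime.mul_right k1.pow_right k2.pow_right)
  have k5 : IsCoprime ((hB + 256) ^ 6) (hB ^ 2 * (hB - 512) ^ 2 * (hB + 64)) :=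
    IsCoprime.pow_left (IsCoprime.mul_right (IsCoprime.mul_right k1.pow_right k2.pow_right) k3)
  refine ⟨Yt * hm2Z * ai * bi, Y2 * ai ^ 2, ?_, ?_, ⟨?_, ?_⟩, ⟨?_, ?_⟩⟩
  · rw [hC]; exact E1
  · rw [hC]; exact E2
  · change mfhPhi (Yt * hm2Z * ai * bi) ∈ _
    rw [map_mul, map_mul, map_mul]
    exact mul_mem (mul_mem (mul_mem mt hhF) haF) hbF
  · change mfhPhi (Yt * hm2Z * ai * bi) ∈ mfhB
    refine mfh_int_of_two (n := 6) (by norm_num) k4
      (P := mfhPhi Y2 ^ 3 * (hm2 Kb + 64) ^ 3) (P' := mfhPhi Y1 ^ 2 * (hm2 Kb + 64) ^ 2)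
      ?_ ?_ ?_ ?_
    · have := congrArg mfhPhi E4
      simpa only [map_mul, map_pow, map_add, map_ofNat, mfh_phi_h2, hBv] using this
    · have := congrArg mfhPhi E5
      simpa only [map_mul, map_pow, map_add, map_sub, map_ofNat, mfh_phi_h2, hBv] using this
    · exact mul_mem (pow_mem iY2 3) (pow_mem (add_mem ih (ofNat_mem _ 64)) 3)
    · exact mul_mem (pow_mem iY1 2) (pow_mem (add_mem ih (ofNat_mem _ 64)) 2)
  · change mfhPhi (Y2 * ai ^ 2) ∈ _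
    rw [map_mul, map_pow]
    exact mul_mem m2 (pow_mem haF 2)
  · change mfhPhi (Y2 * ai ^ 2) ∈ mfhB
    refine mfh_int_of_two (n := 3) (by norm_num) k5
      (P := mfhPhi Y2 ^ 3) (P' := mfhPhi Y1 ^ 2) ?_ ?_ (pow_mem iY2 3) (pow_mem iY1 2)
    · have := congrArg mfhPhi E6
      simpa only [map_mul, map_pow, map_add, map_ofNat, mfh_phi_h2, hBv] using this
    · have := congrArg mfhPhi E7
      simpa only [map_mul, map_pow, map_add, map_sub, map_ofNat, mfh_phi_h2, hBv] using this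

theorem mfh_case3 (N : ℕ) [NeZero N] (h3 : 3 ∣ N) (hMF : StmtMF N) : StmtMFh N 3 := by
  intro f z hz
  obtain ⟨Yt, Y1, Y2, e1, e2, e3, ⟨mt, ct⟩, ⟨m1, c1⟩, ⟨m2, c2⟩⟩ := hMF f z hz
  obtain ⟨ai, hai⟩ := (mfh_isUnit_lin3 243).exists_right_inv
  obtain ⟨bi, hb⟩ := mfh_isUnit_Q.exists_right_inv
  have ha : (hm3Z + 243) * ai = 1 := by
    rw [← hai]; push_cast; rfl
  have hh : hm3Z ≠ 0 := by
    have := (mfh_isUnit_lin3 0).ne_zero
    rwa [Int.cast_zero, add_zero] at this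
  obtain ⟨E1, E2, E4, E5, E6, E7⟩ := mfh_alg3 (jqModC ℤ) hm3Z (thetaFun (jqModC ℤ))
    (thetaFun hm3Z) (fqZ z) Yt Y1 Y2 ai bi hm3Z_j mfh_theta3 e1 e2 e3 ha hb hh
  have hC : auxH 3 - ((auxC 3 : ℤ) : LaurentSeries ℤ) = hm3Z + 27 := by
    rw [auxH_three, auxC_three]; push_cast; rw [sub_neg_eq_add]
  -- memberships
  have hhF : mfhPhi hm3Z ∈ modularFunctionFieldBar N := hm3_mem N h3
  have haF : mfhPhi ai ∈ modularFunctionFieldBar N := by
    refine mfh_inv_mem _ ha ?_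
    rw [map_add, map_ofNat]
    exact add_mem hhF (ofNat_mem _ 243)
  have hbF : mfhPhi bi ∈ modularFunctionFieldBar N := by
    refine mfh_inv_mem _ hb ?_
    rw [map_sub, map_sub, map_mul, map_pow, map_ofNat, map_ofNat]
    exact sub_mem (sub_mem (pow_mem hhF 2) (mul_mem (ofNat_mem _ 486) hhF)) (ofNat_mem _ 19683)
  -- integrality
  have iY1 : mfhPhi Y1 ∈ mfhB := mfk_intJ_of_cuspRel N c1
  have iY2 : mfhPhi Y2 ∈ mfhB := mfk_intJ_of_cuspRel N c2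
  have ih : hm3 Kb ∈ mfhB := mfh_h3_mem
  obtain ⟨hB, hBv⟩ : ∃ hB : mfhB, mfhB.val hB = hm3 Kb := ⟨⟨hm3 Kb, mfh_h3_mem⟩, rfl⟩
  have k1 : IsCoprime (hB + 243) (hB ^ 2 - 486 * hB - 19683) :=
    mfh_coprime _ _ (hB - 729) 157464 (by norm_num) (by push_cast; ring)
  have k2 : IsCoprime (hB + 27) (hB ^ 2 - 486 * hB - 19683) :=
    mfh_coprime _ _ (hB - 513) (-5832) (by norm_num) (by push_cast; ring)
  have k4 : IsCoprime ((hB + 243) ^ 6) ((hB ^ 2 - 486 * hB - 19683) ^ 2) :=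
    IsCoprime.pow k1
  have k5 : IsCoprime ((hB ^ 2 - 486 * hB - 19683) ^ 2) ((hB + 243) ^ 6 * (hB + 27) ^ 2) :=
    IsCoprime.pow_left (IsCoprime.mul_right k1.symm.pow_right k2.symm.pow_right)
  refine ⟨Yt * hm3Z ^ 2 * ai * bi, Y1 * bi, ?_, ?_, ⟨?_, ?_⟩, ⟨?_, ?_⟩⟩
  · rw [hC]; exact E1
  · rw [hC]; exact E2
  · change mfhPhi (Yt * hm3Z ^ 2 * ai * bi) ∈ _
    rw [map_mul, map_mul, map_mul, map_pow]
    exact mul_mem (mul_mem (mul_mem mt (pow_mem hhF 2)) haF) hbF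
  · change mfhPhi (Yt * hm3Z ^ 2 * ai * bi) ∈ mfhB
    refine mfh_int_of_two (n := 6) (by norm_num) k4
      (P := mfhPhi Y2 ^ 3 * hm3 Kb ^ 3) (P' := mfhPhi Y1 ^ 2 * (hm3 Kb + 27) ^ 2)
      ?_ ?_ ?_ ?_
    · have := congrArg mfhPhi E4
      simpa only [map_mul, map_pow, map_add, map_ofNat, mfh_phi_h3, hBv] using this
    · have := congrArg mfhPhi E5
      simpa only [map_mul, map_pow, map_add, map_sub, map_ofNat, mfh_phi_h3, hBv] using this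
    · exact mul_mem (pow_mem iY2 3) (pow_mem ih 3)
    · exact mul_mem (pow_mem iY1 2) (pow_mem (add_mem ih (ofNat_mem _ 27)) 2)
  · change mfhPhi (Y1 * bi) ∈ _
    rw [map_mul]
    exact mul_mem m1 hbF
  · change mfhPhi (Y1 * bi) ∈ mfhB
    refine mfh_int_of_two (n := 2) (by norm_num) k5
      (P := mfhPhi Y1 ^ 2) (P' := mfhPhi Y2 ^ 3 * hm3 Kb ^ 3) ?_ ?_ (pow_mem iY1 2)
      (mul_mem (pow_mem iY2 3) (pow_mem ih 3))
    · have := congrArg mfhPhi E6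
      simpa only [map_mul, map_pow, map_add, map_sub, map_ofNat, mfh_phi_h3, hBv] using this
    · have := congrArg mfhPhi E7
      simpa only [map_mul, map_pow, map_add, map_sub, map_ofNat, mfh_phi_h3, hBv] using this

/-- piece `aux-MFh`. -/
theorem stmtMFhGlue : StmtMFhGlue := by
  intro hMF N _ r hr hrN
  rcases hr with rfl | rfl
  · exact mfh_case2 N hrN (hMF N)
  · exact mfh_case3 N hrN (hMF N)

end Fermat.Agent.ES.I2aux
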