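import Fermat.Agent.ES.I2.Plan2
import Fermat.Agent.ES.I2aux.Target
import Fermat.Agent.INJ.Hauptmodul

/-!
# ES / I2aux — `(I2)` for `ℓ ∈ {2, 3}` on the Hauptmodul line: interface

Target: `Fermat.Agent.ES.M.StmtI2AuxAll` (`ES/I2aux/Target.lean`).  `r = 5 - ℓ ∈ {3, 2}` is the
auxiliary prime, `r ∣ N`, `h = auxH r` the Hauptmodul of `X₀(r)` (`hm2Z`, `hm3Z` of
`INJ/Hauptmodul.lean`), `c₀ = auxC r` the elliptic point of `X₀(r)` on the `h`-line
(`r = 2`: `c₀ = -64`, of order `2`; `r = 3`: `c₀ = -27`, of order `3`).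

The proof is the one of `(I2)` on the `j`-line (`NOTES/ES-I2.md`) with the differential
`f = y_h θh`, `y_h = Yh / (h - c₀)`, in place of `f = y_j θj`, `y_j = Yt / (j (j - 1728))`:

* `StmtMFh` (characteristic `0`, pure algebra on top of `StmtMF`):
  `Yh := f (h - c₀) / θh ∈ ℤ((q))`, `Yh' := Yh ^ r / (h - c₀) ∈ ℤ((q))`, both in `F_N` and integral
  over `ℚ̄[j]`.
  `r = 2`: `Yh = Yt h / ((h + 256) (h - 512))`, `Yh' = Y2 / (h + 256)²`,
          `Yh⁶ = Y2³ (h + 64)³ / (h + 256)⁶ = Y1² (h + 64)² / (h² (h - 512)²)`;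
  `r = 3`: `Yh = Yt h² / ((h + 243) Q)`, `Q = h² - 486 h - 19683`, `Yh' = Y1 / Q`,
          `Yh⁶ = Y2³ h³ / (h + 243)⁶ = Y1² (h + 27)² / Q²`;
  integrality: the two denominators are coprime in `ℚ[h]`, and `h` is integral over `ℚ̄[j]`.
* `StmtMFhk` : the same in characteristic `ℓ` (reduction: `StmtIR`, `(RedF)`).
* abstract core (`ES/I2aux/HLine*.lean`): partial traces over `k(h̄)` through the fibres of
  `i ↦ τ_i h̄`, the nilpotent trace (`NilpTrace.lean`), residues (`Residue.lean`).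
* `StmtI2AuxCore` : the assembly.
-/

set_option autoImplicit false

noncomputable section

namespace Fermat.Agent.ES.I2aux

open ModularCurve AlgebraicCurve HahnSeries Fermat.Agent.ES Fermat.Agent.S24 Fermat.Agent.ES.M
open Fermat.Agent.ES.I2 Fermat.Agent.INJ Fermat.Agent.S28.Deriv

/-- the Hauptmodul of `X₀(r)`, `r ∈ {2, 3}`, in `ℤ((q))` (junk value `hm3Z` for other `r`) -/
def auxH (r : ℕ) : LaurentSeries ℤ := if r = 2 then hm2Z else hm3Z

/-- the elliptic point of `X₀(r)` on the `h`-line: `-64` for `r = 2`, `-27` for `r = 3` -/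
def auxC (r : ℕ) : ℤ := if r = 2 then -64 else -27

theorem auxH_two : auxH 2 = hm2Z := if_pos rfl

theorem auxH_three : auxH 3 = hm3Z := if_neg (by decide)

theorem auxC_two : auxC 2 = -64 := if_pos rfl

theorem auxC_three : auxC 3 = -27 := if_neg (by decide)

/-- the Hauptmodul of `X₀(r)` over `K` -/
def auxHK (K : Type*) [CommRing K] (r : ℕ) : LaurentSeries K :=
  coeffMap (Int.castRingHom K) (auxH r)

theorem auxHK_two (K : Type*) [CommRing K] : auxHK K 2 = hm2 K := by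
  rw [auxHK, auxH_two, hm2]

theorem auxHK_three (K : Type*) [CommRing K] : auxHK K 3 = hm3 K := by
  rw [auxHK, auxH_three, hm3]

/-- **(MFh)** characteristic `0`: the functions `Yh = f (h - c₀) / θh` and
`Yh' = Yh ^ r / (h - c₀)` attached to a cusp form `f` of weight `2` with integral `q`-expansion:
they have integral `q`-expansion, lie in `F_N`, and are integral over `ℚ̄[j]`. -/
def StmtMFh (N : ℕ) [NeZero N] (r : ℕ) : Prop :=
  ∀ (f : CuspForm (CongruenceSubgroup.Gamma0 N) 2) (z : ℕ → ℤ),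
    (∀ n, ModularFormClass.qCoeff f n = (z n : ℂ)) →
    ∃ Yh Yh' : LaurentSeries ℤ,
      Yh * thetaFun (auxH r) = fqZ z * (auxH r - (auxC r : LaurentSeries ℤ)) ∧
      Yh ^ r = (auxH r - (auxC r : LaurentSeries ℤ)) * Yh' ∧
      (coeffMap (Int.castRingHom Kb) Yh ∈ modularFunctionFieldBar N ∧
        IntJ jBar (coeffMap (Int.castRingHom Kb) Yh)) ∧
      (coeffMap (Int.castRingHom Kb) Yh' ∈ modularFunctionFieldBar N ∧
        IntJ jBar (coeffMap (Int.castRingHom Kb) Yh'))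

def StmtMFhAll : Prop :=
  ∀ (N : ℕ) [NeZero N] (r : ℕ), r = 2 ∨ r = 3 → r ∣ N → StmtMFh N r

/-- piece `aux-MFh` -/
def StmtMFhGlue : Prop := StmtMFAll → StmtMFhAll

/-- **(MFhk)** the same in characteristic `ℓ`. -/
def StmtMFhk (N : ℕ) [NeZero N] (A : ValuationSubring Kb) (r : ℕ) : Prop :=
  ∀ (f : CuspForm (CongruenceSubgroup.Gamma0 N) 2) (z : ℕ → ℤ),
    (∀ n, ModularFormClass.qCoeff f n = (z n : ℂ)) →
    ∃ yh yh' : ↥(modularFunctionFieldFullC (kA A) N),
      (yh : LaurentSeries (kA A)) * thetaFun (auxHK (kA A) r) =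
        coeffMap (Int.castRingHom (kA A)) (fqZ z) *
          (auxHK (kA A) r - (auxC r : LaurentSeries (kA A))) ∧
      (yh : LaurentSeries (kA A)) ^ r =
        (auxHK (kA A) r - (auxC r : LaurentSeries (kA A))) * (yh' : LaurentSeries (kA A)) ∧
      IntJ (jqModC (kA A)) (yh : LaurentSeries (kA A)) ∧
      IntJ (jqModC (kA A)) (yh' : LaurentSeries (kA A))

def StmtMFhkAll : Prop :=
  ∀ (N : ℕ) [NeZero N] (ℓ : ℕ), ℓ.Prime → ¬ ℓ ∣ N →
    ∀ A : ValuationSubring Kb, A.LiesOverPrime ℓ →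
      ∀ r : ℕ, r = 2 ∨ r = 3 → r ∣ N → StmtMFhk N A r

/-- piece `aux-MFhk` -/
def StmtMFhkGlue : Prop := StmtIRAll → StmtMFhAll → StmtMFhkAll

/-- **(Const)** `W ∩ q k[[q]] = 0` (the hypothesis `hconst` of `i2_count`). -/
def StmtConst (N : ℕ) [NeZero N] (A : ValuationSubring Kb) : Prop :=
  ∀ w : LaurentSeries (kA A), InW N A w → (∀ m : ℤ, m ≤ 0 → w.coeff m = 0) → w = 0

def StmtConstAll : Prop :=
  ∀ (N : ℕ) [NeZero N] (ℓ : ℕ), ℓ.Prime → ¬ ℓ ∣ N →
    ∀ A : ValuationSubring Kb, A.LiesOverPrime ℓ → StmtConst N A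

/-- piece `aux-Const` -/
def StmtConstGlue : Prop := StmtTN → StmtS2All → StmtTauAll → StmtConstAll

/-- the assembly of `(I2)` for `ℓ ∈ {2, 3}` -/
def StmtI2AuxCore : Prop :=
  StmtTN → StmtS2All → StmtTauAll → StmtMFkAll → StmtMFhkAll → StmtBAll → StmtConstAll →
    StmtI2AuxAll

end Fermat.Agent.ES.I2aux
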