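/-
ES / I2aux, piece `aux-MFhk` (helper83): the functions of `StmtMFh` in characteristic `ℓ`.

`stmtMFhkGlue : StmtMFhkGlue` (`= StmtIRAll → StmtMFhAll → StmtMFhkAll`, `ES/I2aux/Plan.lean`).

The functions `Yh, Yh' ∈ ℤ((q))` of `StmtMFh` are reduced to `k((q))`: the reduction of
`coeffMap (ℤ → A) Y` is `coeffMap (ℤ → k) Y`; membership in `F_k` is `(RedF)` (`ES/M/RedF.lean`),
integrality over `k[j̄]` is `StmtIR`.
-/
import Fermat.Agent.ES.I2aux.Plan
import Fermat.Agent.ES.M.RedF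

set_option autoImplicit false

noncomputable section

namespace Fermat.Agent.ES.I2aux

open ModularCurve AlgebraicCurve HahnSeries Fermat.Agent.ES Fermat.Agent.S24 Fermat.Agent.ES.M
open Fermat.Agent.ES.I2 Fermat.Agent.INJ Fermat.Agent.S28.Deriv

theorem mfhk_incl (A : ValuationSubring Kb) (Y : LaurentSeries ℤ) :
    kronIncl A (coeffMap (Int.castRingHom A) Y) = coeffMap (Int.castRingHom Kb) Y := by
  rw [kronIncl, coeffMap_coeffMap]
  exact coeffMap_congr (RingHom.ext_int _ _) _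

theorem mfhk_red (A : ValuationSubring Kb) (Y : LaurentSeries ℤ) :
    kronRed A (coeffMap (Int.castRingHom A) Y) = coeffMap (Int.castRingHom (kA A)) Y := by
  rw [kronRed, coeffMap_coeffMap]
  exact coeffMap_congr (RingHom.ext_int _ _) _

/-- reduction of an integral series of `F_N` which is integral over `ℚ̄[j]`. -/
theorem mfhk_key (N : ℕ) [NeZero N] (A : ValuationSubring Kb) (hRedF : StmtRedF N A)
    (hIR : StmtIR N A) (Y : LaurentSeries ℤ)
    (hm : coeffMap (Int.castRingHom Kb) Y ∈ modularFunctionFieldBar N)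
    (hi : IntJ jBar (coeffMap (Int.castRingHom Kb) Y)) :
    coeffMap (Int.castRingHom (kA A)) Y ∈ modularFunctionFieldFullC (kA A) N ∧
      IntJ (jqModC (kA A)) (coeffMap (Int.castRingHom (kA A)) Y) := by
  have hm' : kronIncl A (coeffMap (Int.castRingHom A) Y) ∈ modularFunctionFieldBar N := by
    rw [mfhk_incl]; exact hm
  have hi' : IntJ jBar (kronIncl A (coeffMap (Int.castRingHom A) Y)) := by
    rw [mfhk_incl]; exact hi
  have h1 := hRedF _ hm'
  have h2 := hIR _ hm' hi'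
  simp only [mfhk_red] at h1 h2
  exact ⟨h1, h2⟩

/-- piece `aux-MFhk`. -/
theorem stmtMFhkGlue : StmtMFhkGlue := by
  intro hIR hMFh N _ ℓ hℓ hℓN A hA r hr hrN f z hz
  obtain ⟨Yh, Yh', e1, e2, ⟨m1, i1⟩, ⟨m2, i2⟩⟩ := hMFh N r hr hrN f z hz
  have hRedF := stmtRedF N A ℓ hℓ hℓN hA
  have hIRA := hIR N ℓ hℓ hℓN A hA
  obtain ⟨h1, j1⟩ := mfhk_key N A hRedF hIRA Yh m1 i1
  obtain ⟨h2, j2⟩ := mfhk_key N A hRedF hIRA Yh' m2 i2
  refine ⟨⟨_, h1⟩, ⟨_, h2⟩, ?_, ?_, j1, j2⟩
  · have := congrArg (coeffMap (Int.castRingHom (kA A))) e1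
    simpa only [map_mul, map_sub, ← thetaFun_coeffMap, map_intCast, auxHK] using this
  · have := congrArg (coeffMap (Int.castRingHom (kA A))) e2
    simpa only [map_mul, map_sub, map_pow, map_intCast, auxHK] using this

end Fermat.Agent.ES.I2aux
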