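/-
ES / I2aux, piece `aux-PT` (helper83): partial traces through the fibres of `i ↦ τ_i h`.

`stmtPT : StmtPT` (`ES/I2aux/PlanPT.lean`).

* `pt_abstract` : fields `K₀ ⊂ K₁ ⊂ L` (finite, `L / K₀` separable), a full injective family
  `τ i : L → Ω`, `i ∈ I`, `|I| = [L : K₀]`, of embeddings with the same restriction to `K₀`.  Then
  every fibre of `i ↦ τ i |_{K₁}` has exactly `[L : K₁]` elements and
  `∑_{i ∈ fibre} τ i x = τ i₁ (Tr_{L / K₁} x)`.
-/
import Fermat.Agent.ES.I2aux.PlanPT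
import Fermat.Agent.ES.I2.TraceNorm

set_option autoImplicit false
set_option linter.style.haveILetI false

noncomputable section

namespace Fermat.Agent.ES.I2aux

open ModularCurve IntermediateField Fermat.Agent.ES Fermat.Agent.S24 Fermat.Agent.ES.M
open Fermat.Agent.ES.I2 Module

section Abstract

variable {K₀ K₁ L Ω : Type*} [Field K₀] [Field K₁] [Field L] [Field Ω]
  [Algebra K₀ K₁] [Algebra K₁ L] [Algebra K₀ L] [IsScalarTower K₀ K₁ L]
  [FiniteDimensional K₀ L] {I : Type*}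

omit [Field K₀] [Algebra K₀ K₁] [Algebra K₀ L] [IsScalarTower K₀ K₁ L] [FiniteDimensional K₀ L] in
/-- a fibre of `i ↦ τ i |_{K₁}` has at most `[L : K₁]` elements. -/
theorem pt_card_fibre_le [FiniteDimensional K₁ L] (τ : I → (L →+* Ω)) (hτ : Function.Injective τ)
    (ρ : K₁ →+* Ω) (S : Finset I) (hS : ∀ i ∈ S, (τ i).comp (algebraMap K₁ L) = ρ) :
    S.card ≤ finrank K₁ L := by
  letI : Algebra K₁ Ω := ρ.toAlgebra
  let σ : ↥S → (L →ₐ[K₁] Ω) := fun i =>
    { τ i.1 with commutes' := fun x => congrArg (fun f : K₁ →+* Ω => f x) (hS i.1 i.2) }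
  have hσ : Function.Injective σ := by
    intro i j hij
    apply Subtype.ext
    apply hτ
    ext x
    exact congrArg (fun f : L →ₐ[K₁] Ω => f x) hij
  have h1 : Nat.card ↥S ≤ Nat.card (L →ₐ[K₁] Ω) := Nat.card_le_card_of_injective σ hσ
  have h2 := card_algHom_le_finrank K₁ L Ω
  have h3 : Nat.card ↥S = S.card := by
    rw [Nat.card_eq_fintype_card, Fintype.card_coe]
  omega

/-- **partial traces**, abstract form. -/
theorem pt_abstract [Fintype I] [Algebra.IsSeparable K₀ L]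
    (hcard : Fintype.card I = finrank K₀ L)
    (φ₀ : K₀ →+* Ω) (τ : I → (L →+* Ω)) (hτ : Function.Injective τ)
    (hcomp : ∀ i x, τ i (algebraMap K₀ L x) = φ₀ x) (i₁ : I) (S : Finset I)
    (hS : ∀ i, i ∈ S ↔ (τ i).comp (algebraMap K₁ L) = (τ i₁).comp (algebraMap K₁ L)) :
    S.card = finrank K₁ L ∧
      ∀ x : L, ∑ i ∈ S, τ i x = τ i₁ (algebraMap K₁ L (Algebra.trace K₁ L x)) := by
  classical
  haveI : FiniteDimensional K₀ K₁ := FiniteDimensional.left K₀ K₁ L
  haveI : FiniteDimensional K₁ L := FiniteDimensional.right K₀ K₁ L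
  have hmul : finrank K₀ K₁ * finrank K₁ L = finrank K₀ L := Module.finrank_mul_finrank K₀ K₁ L
  -- the restrictions to `K₁`, as `K₀`-embeddings
  have hScard : S.card = finrank K₁ L := by
    letI : Algebra K₀ Ω := φ₀.toAlgebra
    let ρ : I → (K₁ →ₐ[K₀] Ω) := fun i =>
      { (τ i).comp (algebraMap K₁ L) with
        commutes' := fun a => by
          show τ i (algebraMap K₁ L (algebraMap K₀ K₁ a)) = φ₀ a
          rw [← IsScalarTower.algebraMap_apply]
          exact hcomp i a }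
    have hρ : ∀ i i', ρ i = ρ i' ↔
        (τ i).comp (algebraMap K₁ L) = (τ i').comp (algebraMap K₁ L) := by
      intro i i'
      constructor
      · intro h
        ext a
        exact congrArg (fun f : K₁ →ₐ[K₀] Ω => f a) h
      · intro h
        ext a
        exact congrArg (fun f : K₁ →+* Ω => f a) h
    let E : Finset (K₁ →ₐ[K₀] Ω) := Finset.univ.image ρ
    have hE : E.card ≤ finrank K₀ K₁ := by
      have h1 : Nat.card ↥E ≤ Nat.card (K₁ →ₐ[K₀] Ω) :=
        Nat.card_le_card_of_injective Subtype.val Subtype.val_injective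
      have h2 := card_algHom_le_finrank K₀ K₁ Ω
      have h3 : Nat.card ↥E = E.card := by
        rw [Nat.card_eq_fintype_card, Fintype.card_coe]
      omega
    have hfib : ∀ r ∈ E, (Finset.univ.filter (fun i => ρ i = r)).card ≤ finrank K₁ L := by
      intro r _
      refine pt_card_fibre_le τ hτ (r : K₁ →+* Ω) _ fun i hi => ?_
      rw [Finset.mem_filter] at hi
      rw [← hi.2]
      rfl
    have hsum : Fintype.card I = ∑ r ∈ E, (Finset.univ.filter (fun i => ρ i = r)).card := by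
      rw [← Finset.card_univ]
      exact Finset.card_eq_sum_card_image ρ Finset.univ
    have hfull : ∀ r ∈ E, (Finset.univ.filter (fun i => ρ i = r)).card = finrank K₁ L := by
      by_contra hcon
      rw [not_forall] at hcon
      obtain ⟨r₀, hcon⟩ := hcon
      rw [Classical.not_imp] at hcon
      obtain ⟨hr₀, hne⟩ := hcon
      have hlt := lt_of_le_of_ne (hfib r₀ hr₀) hne
      have h1 : ∑ r ∈ E, (Finset.univ.filter (fun i => ρ i = r)).card <
          ∑ _r ∈ E, finrank K₁ L := Finset.sum_lt_sum hfib ⟨r₀, hr₀, hlt⟩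
      rw [Finset.sum_const, smul_eq_mul, ← hsum, hcard, ← hmul] at h1
      exact absurd (Nat.mul_le_mul_right (finrank K₁ L) hE) (not_le.mpr h1)
    have hSeq : S = Finset.univ.filter (fun i => ρ i = ρ i₁) := by
      ext i
      rw [hS, Finset.mem_filter, hρ]
      simp
    rw [hSeq]
    exact hfull (ρ i₁) (Finset.mem_image_of_mem ρ (Finset.mem_univ i₁))
  refine ⟨hScard, fun x => ?_⟩
  -- the trace
  letI : Algebra K₁ Ω := ((τ i₁).comp (algebraMap K₁ L)).toAlgebra
  haveI : Algebra.IsSeparable K₁ L := Algebra.isSeparable_tower_top_of_isSeparable K₀ K₁ L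
  let σ : ↥S → (L →ₐ[K₁] Ω) := fun i =>
    { τ i.1 with commutes' := fun a => congrArg (fun f : K₁ →+* Ω => f a) ((hS i.1).mp i.2) }
  have hσ : Function.Injective σ := by
    intro i j hij
    apply Subtype.ext
    apply hτ
    ext y
    exact congrArg (fun f : L →ₐ[K₁] Ω => f y) hij
  have hc : Fintype.card ↥S = finrank K₁ L := by rw [Fintype.card_coe, hScard]
  have h := trace_eq_sum_of_embeddings hc σ hσ x
  rw [← Finset.sum_coe_sort S (fun i => τ i x)]
  exact h.symm

end Abstract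

section Concrete

variable (k : Type) [Field k] (N : ℕ) [NeZero N] (h : LaurentSeries k)
  (hle : k⟮h⟯ ≤ modularFunctionFieldFullC k N)

/-- the identification `ptL → F_k` -/
def ptToFull : ↥(ptL k N h hle) →+* ↥(modularFunctionFieldFullC k N) where
  toFun x := ⟨x.1, x.2⟩
  map_one' := rfl
  map_mul' _ _ := rfl
  map_zero' := rfl
  map_add' _ _ := rfl

end Concrete

/-- **(PT)**: partial traces through the fibres of `i ↦ τ_i h`. -/
theorem stmtPT : StmtPT := by
  intro k _ ℓ _ _ _ N _ hN τ hτ hj h hle hjh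
  have h01 : k⟮jqModC k⟯ ≤ k⟮h⟯ := by
    rw [adjoin_simple_le_iff]
    exact hjh
  letI a01 : Algebra ↥(k⟮jqModC k⟯) ↥(k⟮h⟯) :=
    (IntermediateField.inclusion h01).toRingHom.toAlgebra
  letI a0L : Algebra ↥(k⟮jqModC k⟯) ↥(ptL k N h hle) :=
    ((algebraMap ↥(k⟮h⟯) ↥(ptL k N h hle)).comp (algebraMap ↥(k⟮jqModC k⟯) ↥(k⟮h⟯))).toAlgebra
  letI m0L : Module ↥(k⟮jqModC k⟯) ↥(ptL k N h hle) := a0L.toModule
  haveI : IsScalarTower ↥(k⟮jqModC k⟯) ↥(k⟮h⟯) ↥(ptL k N h hle) :=
    IsScalarTower.of_algebraMap_eq (fun _ => rfl)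
  -- transfer of the facts on `F_k / k(j̄)`
  let e₀ : ↥(tnL k N) →ₐ[↥(k⟮jqModC k⟯)] ↥(ptL k N h hle) :=
    { toFun := fun x => ⟨x.1, x.2⟩
      map_one' := rfl
      map_mul' := fun _ _ => rfl
      map_zero' := rfl
      map_add' := fun _ _ => rfl
      commutes' := fun _ => rfl }
  have he₀ : Function.Bijective e₀ :=
    ⟨fun x y hxy => Subtype.ext (congrArg Subtype.val hxy), fun y => ⟨⟨y.1, y.2⟩, rfl⟩⟩
  let e : ↥(tnL k N) ≃ₐ[↥(k⟮jqModC k⟯)] ↥(ptL k N h hle) := AlgEquiv.ofBijective e₀ he₀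
  haveI := tn_finite k N
  haveI := tn_separable k N ℓ
  haveI : FiniteDimensional ↥(k⟮jqModC k⟯) ↥(ptL k N h hle) :=
    Module.Finite.equiv e.toLinearEquiv
  haveI : Algebra.IsSeparable ↥(k⟮jqModC k⟯) ↥(ptL k N h hle) :=
    AlgEquiv.Algebra.isSeparable e
  have hcard : Fintype.card (Fin (dedekindPsi N)) =
      finrank ↥(k⟮jqModC k⟯) ↥(ptL k N h hle) := by
    rw [Fintype.card_fin, ← e.toLinearEquiv.finrank_eq, tn_finrank k N hN]
  haveI : FiniteDimensional ↥(k⟮h⟯) ↥(ptL k N h hle) :=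
    FiniteDimensional.right ↥(k⟮jqModC k⟯) ↥(k⟮h⟯) ↥(ptL k N h hle)
  -- the data of the abstract form
  let φ₀ : ↥(k⟮jqModC k⟯) →+* LaurentSeries k :=
    (qExpand k N).comp (k⟮jqModC k⟯).val.toRingHom
  let τ' : Fin (dedekindPsi N) → (↥(ptL k N h hle) →+* LaurentSeries k) :=
    fun i => (τ i).toRingHom.comp (ptToFull k N h hle)
  have hτ' : Function.Injective τ' := by
    intro i i' H
    apply hτ
    apply AlgHom.ext
    intro y
    exact congrArg (fun f : ↥(ptL k N h hle) →+* LaurentSeries k => f ⟨y.1, y.2⟩) H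
  have hcomp : ∀ i (x : ↥(k⟮jqModC k⟯)),
      τ' i (algebraMap ↥(k⟮jqModC k⟯) ↥(ptL k N h hle) x) = φ₀ x :=
    fun i x => tn_comp k N (τ i) (hj i) x
  have hfib : ∀ i i₁ : Fin (dedekindPsi N),
      (τ' i).comp (algebraMap ↥(k⟮h⟯) ↥(ptL k N h hle)) =
        (τ' i₁).comp (algebraMap ↥(k⟮h⟯) ↥(ptL k N h hle)) ↔
      τ i ⟨h, hle (mem_adjoin_simple_self k h)⟩ = τ i₁ ⟨h, hle (mem_adjoin_simple_self k h)⟩ := by
    intro i i₁
    constructor
    · intro H
      exact congrArg (fun f : ↥(k⟮h⟯) →+* LaurentSeries k =>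
        f ⟨h, mem_adjoin_simple_self k h⟩) H
    · intro H
      have H' : (τ i).comp (IntermediateField.inclusion hle) =
          (τ i₁).comp (IntermediateField.inclusion hle) := by
        apply IntermediateField.adjoin_algHom_ext
        intro y hy
        rw [Set.mem_singleton_iff] at hy
        subst hy
        exact H
      ext a : 1
      exact congrArg (fun f : ↥(k⟮h⟯) →ₐ[k] LaurentSeries k => f a) H'
  refine ⟨⟨finrank ↥(k⟮h⟯) ↥(ptL k N h hle), Module.finrank_pos, fun i₁ => ?_⟩,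
    fun i₁ x => ?_⟩
  · exact (pt_abstract (K₁ := ↥(k⟮h⟯)) hcard φ₀ τ' hτ' hcomp i₁ _
      (fun i => by
        classical
        rw [Finset.mem_filter, hfib]
        simp)).1
  · exact (pt_abstract (K₁ := ↥(k⟮h⟯)) hcard φ₀ τ' hτ' hcomp i₁ _
      (fun i => by
        classical
        rw [Finset.mem_filter, hfib]
        simp)).2 x

end Fermat.Agent.ES.I2aux
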