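/-
ES / I2aux, piece aux-Scale (helper65): integrality over `k[j]` becomes integrality over `k[h]`
after multiplication by a power of `h`, if `j h^b = G(h)`.
-/
import Fermat.Agent.ES.I2aux.Plan3

set_option autoImplicit false

open Polynomial

namespace Fermat.Agent.ES.I2aux

/-- key step: `h^e c(j)` is a polynomial in `h` for `e ≥ b · deg c` -/
theorem auxScale_key {L : Type*} [CommRing L] {k : Type*} [Field k] [Algebra k L] (j h : L) (b : ℕ)
    (G : Polynomial k) (hG : j * h ^ b = aeval h G) (D : ℕ) (c : Polynomial k)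
    (hc : c.natDegree ≤ D) (e : ℕ) (he : b * D ≤ e) :
    ∃ d : Polynomial k, aeval h d = h ^ e * aeval j c := by
  refine ⟨∑ m ∈ Finset.range (D + 1), C (c.coeff m) * X ^ (e - b * m) * G ^ m, ?_⟩
  have hcs : aeval j c = ∑ m ∈ Finset.range (D + 1), algebraMap k L (c.coeff m) * j ^ m := by
    conv_lhs => rw [c.as_sum_range' (D + 1) (Nat.lt_succ_of_le hc)]
    rw [map_sum]
    refine Finset.sum_congr rfl fun m _ => ?_
    rw [aeval_monomial]
  rw [map_sum, hcs, Finset.mul_sum]
  refine Finset.sum_congr rfl fun m hm => ?_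
  have hm' : b * m ≤ e := le_trans (Nat.mul_le_mul_left b (Nat.lt_succ_iff.1 (Finset.mem_range.1 hm))) he
  rw [map_mul, map_mul, aeval_C, map_pow, map_pow, aeval_X, ← hG, mul_pow, ← pow_mul]
  have : h ^ e = h ^ (e - b * m) * h ^ (b * m) := by
    rw [← pow_add, Nat.sub_add_cancel hm']
  rw [this]
  ring

/-- integrality over `k[j]` becomes integrality over `k[h]` after multiplication by a power of
`h`, if `j h^b` is a polynomial in `h` (general form) -/
theorem auxScale_general {L : Type*} [CommRing L] [Nontrivial L] {k : Type*} [Field k] [Algebra k L]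
    (j h : L) (b : ℕ) (G : Polynomial k) (hG : j * h ^ b = aeval h G) (z : L)
    (hz : ∃ p : Polynomial (Polynomial k), p.Monic ∧ p.eval₂ (aeval j).toRingHom z = 0) :
    ∃ a : ℕ, ∀ a' : ℕ, a ≤ a' →
      ∃ p : Polynomial (Polynomial k), p.Monic ∧ p.eval₂ (aeval h).toRingHom (h ^ a' * z) = 0 := by
  obtain ⟨p, hp, hpz⟩ := hz
  set D : ℕ := p.support.sup fun i => (p.coeff i).natDegree with hD
  have hDle : ∀ i, (p.coeff i).natDegree ≤ D := by
    intro i
    by_cases hi : i ∈ p.support
    · exact Finset.le_sup (f := fun i => (p.coeff i).natDegree) hi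
    · rw [Polynomial.notMem_support_iff.1 hi, natDegree_zero]
      exact Nat.zero_le _
  refine ⟨b * D, fun a' ha' => ?_⟩
  set fj : Polynomial k →+* L := (aeval j).toRingHom with hfj
  set fh : Polynomial k →+* L := (aeval h).toRingHom with hfh
  set P : Polynomial L := scaleRoots (p.map fj) (h ^ a') with hP
  have hmon : (p.map fj).Monic := hp.map fj
  have hPmon : P.Monic := (monic_scaleRoots_iff _).2 hmon
  have hnat : (p.map fj).natDegree = p.natDegree := hp.natDegree_map fj
  have hPz : P.eval (h ^ a' * z) = 0 := by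
    have h1 := scaleRoots_eval₂_mul (p := p.map fj) (RingHom.id L) z (h ^ a')
    rw [RingHom.id_apply, eval₂_id, eval₂_id, eval_map, hpz, mul_zero] at h1
    exact h1
  have hlift : P ∈ lifts fh := by
    rw [lifts_iff_coeff_lifts]
    intro i
    rw [hP, coeff_scaleRoots, coeff_map, hnat]
    rcases lt_trichotomy i p.natDegree with hi | hi | hi
    · obtain ⟨d, hd⟩ := auxScale_key j h b G hG D (p.coeff i) (hDle i) (a' * (p.natDegree - i))
        (le_trans ha' (Nat.le_mul_of_pos_right _ (Nat.sub_pos_of_lt hi)))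
      refine ⟨d, ?_⟩
      show aeval h d = _
      rw [hd, ← pow_mul, mul_comm]
      rfl
    · refine ⟨1, ?_⟩
      rw [hi, hp.coeff_natDegree, Nat.sub_self, pow_zero, map_one, map_one, mul_one]
    · refine ⟨0, ?_⟩
      rw [coeff_eq_zero_of_natDegree_lt hi, map_zero, map_zero, zero_mul]
  obtain ⟨q, hq, -, hqmon⟩ := lifts_and_degree_eq_and_monic hlift hPmon
  refine ⟨q, hqmon, ?_⟩
  rw [← eval_map, hq]
  exact hPz

/-- piece `aux-Scale` -/
theorem stmtScale : StmtScale := by
  intro k _ j h b G hG z hz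
  exact auxScale_general j h b G hG z hz

end Fermat.Agent.ES.I2aux
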