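import Fermat.Agent.ES.I2aux.Plan3
import Fermat.Agent.ES.I2.Res

/-!
# ES / I2aux — piece `aux-Sum`: the summands of the trace argument

`stmtSumGlue : StmtSumGlue` (`= StmtS2All → StmtSumAll`, interface `ES/I2aux/Plan3.lean`).

`J = j̄(Q^N)`, `κ = θ_Q J / (J (J - 1728))` has `Q`-order `≥ N`.  For `i ≠ i₀`: `τ_i w` has no
pole (S2), `τ_i y` has order `> -N`, so `τ_i(w) τ_i(y) κ` has positive order.  For `i = i₀`:
`τ_{i₀} = (q ↦ Q^N)`, `θ_Q (g(Q^N)) = N (θ_q g)(Q^N)`, and `y θj̄ = f̄ j̄ (j̄ - 1728)`, so the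
summand is `N · (w f̄)(Q^N)`.
-/

set_option autoImplicit false

noncomputable section

namespace Fermat.Agent.ES.I2aux

open ModularCurve AlgebraicCurve Fermat.Agent.ES Fermat.Agent.S24 Fermat.Agent.ES.M
open Fermat.Agent.ES.I2 Fermat.Agent.S28.Deriv Polynomial

/-- `J (J - 1728)` for `J` of negative order: nonzero, of order `2 · ord J` -/
theorem auxSum_den {k : Type*} [Field k] {J : LaurentSeries k} (hJ : J.order < 0) :
    J * (J - 1728) ≠ 0 ∧ (J * (J - 1728)).order = 2 * J.order := by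
  have hC : (HahnSeries.C (1728 : k) : LaurentSeries k) = 1728 := map_ofNat _ _
  have hDa : J * (J - 1728) = aeval J (X * (X - Polynomial.C (1728 : k)) : k[X]) := by
    rw [map_mul, map_sub, aeval_X, aeval_C, algebraMap_eq_C, hC]
  have hq : (X * (X - Polynomial.C (1728 : k)) : k[X]) ≠ 0 := mul_ne_zero X_ne_zero (X_sub_C_ne_zero _)
  refine ⟨?_, ?_⟩
  · rw [hDa]
    exact Fermat.Agent.S28.aeval_ne_zero_of_order_neg hJ hq
  · rw [hDa, Fermat.Agent.S28.order_aeval_of_order_neg hJ hq]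
    have : (X * (X - Polynomial.C (1728 : k)) : k[X]).natDegree = 2 := by
      rw [natDegree_mul X_ne_zero (X_sub_C_ne_zero _), natDegree_X, natDegree_X_sub_C]
    rw [this]
    push_cast
    ring

/-- `κ = θ J / (J (J - 1728))` has order `≥ - ord J` -/
theorem auxSum_kappa {k : Type*} [Field k] {J : LaurentSeries k} (hJ : J.order < 0) :
    OrdGe (thetaFun J / (J * (J - 1728))) (-J.order) := by
  obtain ⟨hD0, hDo⟩ := auxSum_den hJ
  have hDi : OrdGe (J * (J - 1728))⁻¹ (-(2 * J.order)) := by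
    have := OrdGe.inv_of_order hD0
    rwa [hDo] at this
  have hθ : OrdGe (thetaFun J) J.order := (ordGe_order J).thetaFun
  rw [div_eq_mul_inv]
  have := hθ.mul hDi
  have he : J.order + -(2 * J.order) = -J.order := by ring
  rwa [he] at this

/-- the summand at `i₀`, generic form -/
theorem auxSum_infty {k : Type*} [Field k] (N : ℕ) [NeZero N] (w y fq : LaurentSeries k)
    (hrel : y * thetaFun (jqModC k) = fq * jqModC k * (jqModC k - 1728)) :
    (qExpand k N w * qExpand k N y * (thetaFun (qExpand k N (jqModC k)) /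
      (qExpand k N (jqModC k) * (qExpand k N (jqModC k) - 1728)))).coeff 0 =
      (N : k) * (w * fq).coeff 0 := by
  have hJneg : (qExpand k N (jqModC k)).order < 0 := by
    rw [res_order_J k N]
    have : (0 : ℤ) < N := by exact_mod_cast Nat.pos_of_ne_zero (NeZero.ne N)
    omega
  obtain ⟨hD0, -⟩ := auxSum_den hJneg
  have h5 := congrArg (qExpand k N) hrel
  rw [map_mul, map_mul, map_mul, map_sub, map_ofNat] at h5
  have key : qExpand k N w * qExpand k N y * (thetaFun (qExpand k N (jqModC k)) /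
      (qExpand k N (jqModC k) * (qExpand k N (jqModC k) - 1728))) =
      HahnSeries.C ((N : ℕ) : k) * qExpand k N (w * fq) := by
    rw [thetaFun_qExpand, eq_comm, ← mul_div_assoc, eq_div_iff hD0, map_mul]
    linear_combination (-(HahnSeries.C ((N : ℕ) : k) * qExpand k N w)) * h5
  rw [key, res_coeff_C_mul]
  have h8 := qExpand_coeff_mul (R := k) (N := N) (w * fq) 0
  rw [mul_zero] at h8
  rw [h8]

/-- piece `aux-Sum`. -/
theorem stmtSumGlue : StmtSumGlue := by
  intro hS2 N _ ℓ hℓ hℓN A hA τ i₀ hτ w hw fq y hrel hyord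
  obtain ⟨-, hS2b⟩ := hS2 N ℓ hℓ hℓN A hA
  have hJo : (qExpand (kA A) N (jqModC (kA A))).order = -(N : ℤ) := res_order_J (kA A) N
  have hN0 : (0 : ℤ) < N := by exact_mod_cast Nat.pos_of_ne_zero (NeZero.ne N)
  have hJneg : (qExpand (kA A) N (jqModC (kA A))).order < 0 := by rw [hJo]; omega
  have hκ := auxSum_kappa hJneg
  rw [hJo, neg_neg] at hκ
  refine ⟨fun i hi => ?_, ?_⟩
  · have h1 : OrdGe (τ i ⟨w, hw.1⟩) 0 := hS2b τ i₀ hτ w hw i hi
    have h2 : OrdGe (τ i y) (-(N : ℤ) + 1) := fun m hm => hyord i m (by omega)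
    have h3 := (h1.mul h2).mul hκ
    exact h3 0 (by omega)
  · have h4 : τ i₀ y = qExpand (kA A) N (y : LaurentSeries (kA A)) := by
      rw [hτ.infty]
      rfl
    have h6 : τ i₀ ⟨w, hw.1⟩ = qExpand (kA A) N w := by
      rw [hτ.infty]
      rfl
    rw [h4, h6]
    exact auxSum_infty N w y fq hrel

end Fermat.Agent.ES.I2aux
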