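import Fermat.Agent.ES.I2aux.HRes
import Fermat.Agent.ES.I2aux.PT
import Fermat.Agent.ES.I2aux.Scale
import Fermat.Agent.ES.I2aux.Line
import Fermat.Agent.ES.I2aux.Link
import Fermat.Agent.ES.I2aux.Sum
import Fermat.Agent.ES.I2aux.MFh
import Fermat.Agent.ES.I2aux.MFhk
import Fermat.Agent.ES.I2.Final

/-!
# ES / I2aux — the final assembly: `StmtI2AuxAll`

`dim_k W_n ≤ n + 1 - g` in characteristic `ℓ ∈ {2, 3}`, at the levels `N` prime to `ℓ` and
divisible by the auxiliary prime `r = 5 - ℓ` (good reduction of `X₀(N)` at `2` and `3`).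

The residue theorem `a₀ (w f̄) = 0` (`auxRes_main`) comes from the Hauptmodul line of `X₀(r)`:
`N · a₀ (w f̄) = a₀ (∑_i τ_i(w) τ_i(y) κ)` (`StmtSum`), the summands are
`τ_i(w y_h) / (e_i - c₀) · θ e_i` (`StmtLink`), and the constant term of their sum vanishes
(`hres_main`).  The count is the one of the `j`-line (`I2.cnt2_stmtI2`).
-/

set_option autoImplicit false
set_option linter.style.haveILetI false
set_option synthInstance.maxHeartbeats 400000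

noncomputable section

namespace Fermat.Agent.ES.I2aux

open ModularCurve AlgebraicCurve HahnSeries Fermat.Agent.ES Fermat.Agent.S24 Fermat.Agent.ES.M
open Fermat.Agent.ES.I2 Fermat.Agent.S28.Deriv

theorem stmtMFhAll : StmtMFhAll := stmtMFhGlue stmtMFAll

theorem stmtMFhkAll : StmtMFhkAll := stmtMFhkGlue stmtIRAll stmtMFhAll

theorem stmtSumAll : StmtSumAll := stmtSumGlue stmtS2All

/-- the residue theorem on `W` in characteristic `ℓ ∈ {2, 3}` -/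
theorem auxRes_main (N : ℕ) [NeZero N] (ℓ : ℕ) (hℓ : ℓ.Prime) (hlt : ℓ < 5) (hℓN : ¬ ℓ ∣ N)
    (hdiv : (5 - ℓ) ∣ N) (A : ValuationSubring Kb) (hA : A.LiesOverPrime ℓ) :
    Fermat.Agent.ES.I2.StmtRes N A := by
  intro w hw f z hz
  classical
  haveI : Fact ℓ.Prime := ⟨hℓ⟩
  haveI : CharP (kA A) ℓ := kron_charP_residueField hℓ hA
  haveI : PerfectRing (kA A) ℓ := Fermat.Agent.INJ.nf_perfectRing_residueField A ℓ
  have hNk : ((N : ℕ) : kA A) ≠ 0 := redF_natCast_ne_zero N A ℓ hℓ hℓN hA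
  have hr : 5 - ℓ = 2 ∨ 5 - ℓ = 3 := by
    have h2 := hℓ.two_le
    have hcases : ℓ = 2 ∨ ℓ = 3 := by
      interval_cases ℓ
      · left; rfl
      · right; rfl
      · exact absurd hℓ (by decide)
    rcases hcases with rfl | rfl
    · right; rfl
    · left; rfl
  have hr0 : 0 < 5 - ℓ := by omega
  obtain ⟨τ, i₀, hτ⟩ := stmtTauAll N ℓ hℓ hℓN A hA
  obtain ⟨-, y, y1, y2, hrel, -, -, -, -, -, hyord⟩ :=
    stmtMFkAll N ℓ hℓ hℓN A hA τ i₀ hτ f z hz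
  obtain ⟨yh, yh', hhrel, hpow, hyhI, hyh'I⟩ := stmtMFhkAll N ℓ hℓ hℓN A hA (5 - ℓ) hr hdiv f z hz
  obtain ⟨hS2a, -⟩ := stmtS2All N ℓ hℓ hℓN A hA
  have hh : IsAuxLine (kA A) N (auxHK (kA A) (5 - ℓ)) := stmtAuxLine (kA A) ℓ N hNk hlt hdiv
  have hcC : ((auxC (5 - ℓ) : ℤ) : LaurentSeries (kA A)) =
      HahnSeries.C ((auxC (5 - ℓ) : ℤ) : kA A) := (map_intCast _ _).symm
  rw [hcC] at hhrel hpow
  set fq : LaurentSeries (kA A) := coeffMap (Int.castRingHom (kA A)) (fqZ z) with hfq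
  have hwI : IntJ (jqModC (kA A)) w := hS2a w hw
  let wF : ↥(modularFunctionFieldFullC (kA A) N) := ⟨w, hw.1⟩
  -- the residue theorem on the `h`-line
  have key := hres_main (kA A) ℓ N hNk stmtPT stmtScale stmtTN τ hτ.inj hτ.jmap
    (auxHK (kA A) (5 - ℓ)) hh ((auxC (5 - ℓ) : ℤ) : kA A) (5 - ℓ) hr0 (wF * yh)
    (wF ^ (5 - ℓ) * yh') (hwI.mul hyhI) ((hwI.pow _).mul hyh'I) (by
      show (w * (yh : LaurentSeries (kA A))) ^ (5 - ℓ) = _ * (w ^ (5 - ℓ) * (yh' : LaurentSeries (kA A)))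
      rw [mul_pow, hpow]
      ring)
  -- the summands
  have hsummand : ∀ i, τ i (wF * yh) / (τ i ⟨auxHK (kA A) (5 - ℓ), hh.mem⟩ -
      HahnSeries.C ((auxC (5 - ℓ) : ℤ) : kA A)) *
        thetaFun (τ i ⟨auxHK (kA A) (5 - ℓ), hh.mem⟩) =
      τ i wF * τ i y * (thetaFun (qExpand (kA A) N (jqModC (kA A))) /
        (qExpand (kA A) N (jqModC (kA A)) * (qExpand (kA A) N (jqModC (kA A)) - 1728))) := by
    intro i
    have h1 := stmtLink (kA A) N (τ i) (hτ.jmap i) (auxHK (kA A) (5 - ℓ)) hh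
      ((auxC (5 - ℓ) : ℤ) : kA A) fq y yh hrel hhrel
    rw [map_mul, mul_div_assoc, mul_assoc, h1, mul_assoc]
  rw [Finset.sum_congr rfl (fun i _ => hsummand i), HahnSeries.coeff_sum] at key
  obtain ⟨hs1, hs2⟩ := stmtSumAll N ℓ hℓ hℓN A hA τ i₀ hτ w hw fq y hrel hyord
  rw [Finset.sum_eq_single i₀ (fun i _ hi => hs1 i hi)
    (fun h => absurd (Finset.mem_univ i₀) h), hs2] at key
  exact (mul_eq_zero.1 key).resolve_left hNk

/-- **(I2)** for `ℓ ∈ {2, 3}`, at the levels divisible by the auxiliary prime `5 - ℓ`. -/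
theorem stmtI2AuxAll : StmtI2AuxAll := by
  intro N _ ℓ hℓ hlt hℓN hdiv A hA
  exact cnt2_stmtI2 N A (stmtTauAll N ℓ hℓ hℓN A hA) (stmtMFkAll N ℓ hℓ hℓN A hA)
    (Fermat.Agent.ES.I2.stmtConstAll N ℓ hℓ hℓN A hA) (auxRes_main N ℓ hℓ hlt hℓN hdiv A hA)
    (stmtBAll N ℓ hℓ A hA)

end Fermat.Agent.ES.I2aux
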