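import Fermat.Agent.ES.I2aux.NilpTrace
import Fermat.Agent.ES.I2aux.Plan3
import Fermat.Agent.ES.I2aux.Residue
import Fermat.Agent.ES.I2.TraceNorm
import Fermat.Agent.ES.I2.Res
import Fermat.Agent.INJ.GaussHaupt
import Fermat.Agent.S24.PolyClosure

/-!
# ES / I2aux — the residue theorem on the Hauptmodul line

`k` perfect of characteristic `ℓ`, `(N : k) ≠ 0`, `τ_i : F_k → k((Q))` the full family of
embeddings over `k(j̄)`, `h ∈ F_k` with `IsAuxLine k N h`, `e_i = τ_i h`.  For `z, z' ∈ F_k`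
integral over `k[j̄]` with `z ^ M = (h - c) z'`:

  `a₀ (∑_i τ_i z / (e_i - c) · θ e_i) = 0`      (`hres_main`).

Proof: `h^a z` is integral over `k[h]` (`StmtScale`), so `Tr_{F_k/k(h)} (h^a z) = (h - c) P(h)`
(nilpotent trace, `hline_nilp`), `Tr (z / (h - c)) = h^(-a) P(h)`; the sum over the fibre of
`i ↦ e_i` through `i₁` is `e^(-a) P(e)`, `e = e_{i₁}` (`StmtPT`); the residue of
`e^(-a) P(e) θe` is `P_{a-1} · ord e` (`Residue.lean`), and `∑_e ord e = 0` because the norm of
the unit `h` is a nonzero constant (`StmtTN`).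
-/

set_option autoImplicit false
set_option linter.style.haveILetI false
set_option synthInstance.maxHeartbeats 400000

noncomputable section

namespace Fermat.Agent.ES.I2aux

open Module IntermediateField Polynomial ModularCurve Fermat.Agent.S24 Fermat.Agent.ES.I2
open Fermat.Agent.ES.M Fermat.Agent.S28.Deriv

/-- the nilpotent trace, field form: `R` Dedekind with fraction field `K`, `L / K` finite
separable, `z, z' ∈ L` integral over `R` with `z ^ M = π z'`, `(π)` maximal: then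
`Tr_{L/K} z ∈ π R`. -/
theorem nilpTrace_field {R K L : Type*} [CommRing R] [IsDedekindDomain R] [Field K] [Field L]
    [Algebra R K] [IsFractionRing R K] [Algebra K L] [Algebra R L] [IsScalarTower R K L]
    [FiniteDimensional K L] [Algebra.IsSeparable K L]
    (π : R) (hπ : (Ideal.span {π}).IsMaximal) (M : ℕ) (z z' : L)
    (hz : IsIntegral R z) (hz' : IsIntegral R z') (hzz : z ^ M = algebraMap R L π * z') :
    ∃ t : R, Algebra.trace K L z = algebraMap R K (π * t) := by
  classical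
  let S := integralClosure R L
  have : IsIntegralClosure S R L := inferInstance
  have : Module.Finite R S := IsIntegralClosure.finite R K L S
  have : IsIntegrallyClosed S := integralClosure.isIntegrallyClosedOfFiniteExtension K
  have : IsFractionRing S L := integralClosure.isFractionRing_of_finite_extension K L
  have hinj : Function.Injective (algebraMap R S) := by
    intro a b hab
    have h1 : algebraMap R L a = algebraMap R L b := congrArg (fun x : S => (x : L)) hab
    rw [IsScalarTower.algebraMap_apply R K L, IsScalarTower.algebraMap_apply R K L] at h1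
    exact IsFractionRing.injective R K ((algebraMap K L).injective h1)
  have : Module.IsTorsionFree R S := Module.isTorsionFree_iff_algebraMap_injective.mpr hinj
  have h1 := nilpTrace_intTrace_mem (R := R) (S := S) (Ideal.span {π}) (⟨z, hz⟩ : S) M (by
    have : (⟨z, hz⟩ : S) ^ M = algebraMap R S π * ⟨z', hz'⟩ := by
      apply Subtype.ext
      simpa using hzz
    rw [this]
    exact Ideal.mul_mem_right _ _ (Ideal.mem_map_of_mem _ (Ideal.mem_span_singleton_self π)))
  obtain ⟨t, ht⟩ := Ideal.mem_span_singleton'.1 h1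
  refine ⟨t, ?_⟩
  have h2 := Algebra.algebraMap_intTrace (A := R) (K := K) (L := L) (B := S) (⟨z, hz⟩ : S)
  rw [mul_comm, ht, h2]
  rfl

section Line

variable {k Λ : Type*} [Field k] [Field Λ] [Algebra k Λ]

/-- the nilpotent trace over the line `k[h]`: for `E / k(h)` finite separable and `z, z' ∈ E`
integral over `k[h]` with `z ^ M = (h - c) z'`: `Tr_{E / k(h)} z = (h - c) P(h)`. -/
theorem hline_nilp (h : Λ) (htr : Transcendental k h) (E : IntermediateField k⟮h⟯ Λ)
    [FiniteDimensional ↥(k⟮h⟯) ↥E] [Algebra.IsSeparable ↥(k⟮h⟯) ↥E]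
    (c : k) (M : ℕ) (z z' : ↥E)
    (hz : ∃ p : Polynomial (Polynomial k), p.Monic ∧
      p.eval₂ (Polynomial.aeval h).toRingHom (z : Λ) = 0)
    (hz' : ∃ p : Polynomial (Polynomial k), p.Monic ∧
      p.eval₂ (Polynomial.aeval h).toRingHom (z' : Λ) = 0)
    (hzz : (z : Λ) ^ M = (h - algebraMap k Λ c) * (z' : Λ)) :
    ∃ P : k[X], ((Algebra.trace ↥(k⟮h⟯) ↥E z : ↥(k⟮h⟯)) : Λ) =
      (h - algebraMap k Λ c) * Polynomial.aeval h P := by
  letI algRK : Algebra k[X] ↥(k⟮h⟯) := polyAlgebraAdjoin (K := k) h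
  haveI : IsFractionRing k[X] ↥(k⟮h⟯) := polyAlgebraAdjoin_isFractionRing (K := k) h htr
  letI algRL : Algebra k[X] ↥E :=
    ((algebraMap ↥(k⟮h⟯) ↥E).comp (algebraMap k[X] ↥(k⟮h⟯))).toAlgebra
  haveI : IsScalarTower k[X] ↥(k⟮h⟯) ↥E := IsScalarTower.of_algebraMap_eq (fun _ => rfl)
  have hcoeK : ∀ p : k[X], ((algebraMap k[X] ↥(k⟮h⟯) p : ↥(k⟮h⟯)) : Λ) =
      Polynomial.aeval h p := by
    intro p
    show ((Polynomial.aeval (AdjoinSimple.gen k h) p : ↥(k⟮h⟯)) : Λ) = _
    rw [← IntermediateField.coe_val, ← Polynomial.aeval_algHom_apply]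
    simp
  have hcoe : ∀ p : k[X], ((algebraMap k[X] ↥E p : ↥E) : Λ) = Polynomial.aeval h p :=
    fun p => hcoeK p
  have hint : ∀ y : ↥E, (∃ p : Polynomial (Polynomial k), p.Monic ∧
      p.eval₂ (Polynomial.aeval h).toRingHom (y : Λ) = 0) → IsIntegral k[X] y := by
    rintro y ⟨p, hp, hpz⟩
    refine ⟨p, hp, ?_⟩
    apply Subtype.val_injective
    have h1 := Polynomial.hom_eval₂ p (algebraMap k[X] ↥E) (E.val.toRingHom) y
    have h2 : (E.val.toRingHom).comp (algebraMap k[X] ↥E) =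
        (Polynomial.aeval h).toRingHom := RingHom.ext hcoe
    rw [h2] at h1
    exact h1.trans hpz
  have hmax : (Ideal.span {(X - C c : k[X])}).IsMaximal :=
    PrincipalIdealRing.isMaximal_of_irreducible (Polynomial.irreducible_X_sub_C c)
  have hzz' : z ^ M = algebraMap k[X] ↥E (X - C c) * z' := by
    apply Subtype.val_injective
    show (z : Λ) ^ M = ((algebraMap k[X] ↥E (X - C c) : ↥E) : Λ) * (z' : Λ)
    rw [hcoe, hzz]
    simp
  obtain ⟨t, ht⟩ := nilpTrace_field (R := k[X]) (K := ↥(k⟮h⟯)) (L := ↥E) (X - C c) hmax M z z'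
    (hint z hz) (hint z' hz') hzz'
  refine ⟨t, ?_⟩
  rw [ht, hcoeK]
  simp

end Line

section Residue

variable {k : Type*} [Field k]

/-- the residue of `y^(-a) P(y) θy` is `P_{a-1} · ord y` -/
theorem hres_residue (y : LaurentSeries k) (hy : y ≠ 0) (a : ℕ) (P : k[X]) :
    ((y ^ a)⁻¹ * Polynomial.aeval y P * thetaFun y).coeff 0 =
      (P * X).coeff a * ((y.order : ℤ) : k) := by
  induction P using Polynomial.induction_on' with
  | add P Q hP hQ =>
    rw [map_add, mul_add, add_mul, HahnSeries.coeff_add, hP, hQ, add_mul, coeff_add, add_mul]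
  | monomial n r =>
    rw [aeval_monomial, algebraMap_eq_hahnC, monomial_mul_X, coeff_monomial]
    have h1 : (y ^ a)⁻¹ * (HahnSeries.C r * y ^ n) * thetaFun y =
        HahnSeries.C r * (y ^ ((n : ℤ) - (a : ℤ)) * thetaFun y) := by
      rw [zpow_sub₀ hy, zpow_natCast, zpow_natCast]
      field_simp
    rw [h1, res_coeff_C_mul, res_zpow_mul_theta y hy]
    by_cases hna : n + 1 = a
    · rw [if_pos hna, if_pos (by omega)]
    · rw [if_neg hna, if_neg (by omega), mul_zero, zero_mul]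

/-- the order of a product of nonzero series -/
theorem hres_order_prod {ι : Type*} (s : Finset ι) (f : ι → LaurentSeries k)
    (hf : ∀ i ∈ s, f i ≠ 0) : (∏ i ∈ s, f i).order = ∑ i ∈ s, (f i).order := by
  classical
  induction s using Finset.induction_on with
  | empty => simp
  | insert i s hi ih =>
    rw [Finset.prod_insert hi, Finset.sum_insert hi,
      HahnSeries.order_mul (hf i (Finset.mem_insert_self i s))
        (Finset.prod_ne_zero_iff.2 fun j hj => hf j (Finset.mem_insert_of_mem hj)),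
      ih fun j hj => hf j (Finset.mem_insert_of_mem hj)]

end Residue

section Concrete

variable (k : Type) [Field k] (N : ℕ) [NeZero N] (h : LaurentSeries k)
  (hle : k⟮h⟯ ≤ modularFunctionFieldFullC k N)

/-- `F_k / k(h)` is finite -/
theorem hres_finite (hjh : jqModC k ∈ k⟮h⟯) :
    FiniteDimensional ↥(k⟮h⟯) ↥(ptL k N h hle) := by
  have h01 : k⟮jqModC k⟯ ≤ k⟮h⟯ := by
    rw [adjoin_simple_le_iff]
    exact hjh
  letI a01 : Algebra ↥(k⟮jqModC k⟯) ↥(k⟮h⟯) :=
    (IntermediateField.inclusion h01).toRingHom.toAlgebra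
  letI a0L : Algebra ↥(k⟮jqModC k⟯) ↥(ptL k N h hle) :=
    ((algebraMap ↥(k⟮h⟯) ↥(ptL k N h hle)).comp (algebraMap ↥(k⟮jqModC k⟯) ↥(k⟮h⟯))).toAlgebra
  letI m0L : Module ↥(k⟮jqModC k⟯) ↥(ptL k N h hle) := a0L.toModule
  haveI : IsScalarTower ↥(k⟮jqModC k⟯) ↥(k⟮h⟯) ↥(ptL k N h hle) :=
    IsScalarTower.of_algebraMap_eq (fun _ => rfl)
  let e₀ : ↥(tnL k N) →ₐ[↥(k⟮jqModC k⟯)] ↥(ptL k N h hle) :=
    { toFun := fun x => ⟨x.1, x.2⟩
      map_one' := rfl
      map_mul' := fun _ _ => rfl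
      map_zero' := rfl
      map_add' := fun _ _ => rfl
      commutes' := fun _ => rfl }
  have he₀ : Function.Bijective e₀ :=
    ⟨fun x y hxy => Subtype.ext (congrArg Subtype.val hxy), fun y => ⟨⟨y.1, y.2⟩, rfl⟩⟩
  let e : ↥(tnL k N) ≃ₐ[↥(k⟮jqModC k⟯)] ↥(ptL k N h hle) := AlgEquiv.ofBijective e₀ he₀
  haveI := tn_finite k N
  haveI : FiniteDimensional ↥(k⟮jqModC k⟯) ↥(ptL k N h hle) :=
    Module.Finite.equiv e.toLinearEquiv
  exact FiniteDimensional.right ↥(k⟮jqModC k⟯) ↥(k⟮h⟯) ↥(ptL k N h hle)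

/-- `F_k / k(h)` is separable (`k` perfect, `θh ≠ 0`) -/
theorem hres_separable (ℓ : ℕ) [Fact ℓ.Prime] [CharP k ℓ] [PerfectRing k ℓ]
    (htr : Transcendental k h) (hθ : thetaFun h ≠ 0)
    [FiniteDimensional ↥(k⟮h⟯) ↥(ptL k N h hle)] :
    Algebra.IsSeparable ↥(k⟮h⟯) ↥(ptL k N h hle) := by
  refine ⟨fun x => ?_⟩
  have hx : IsIntegral ↥(k⟮h⟯) x := IsIntegral.of_finite _ x
  have hx' : IsIntegral ↥(k⟮h⟯) (x : LaurentSeries k) := by
    have := hx.map (ptL k N h hle).val
    exact this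
  have h1 := Fermat.Agent.INJ.isSeparable_of_theta ℓ htr hθ hx'
  show (minpoly ↥(k⟮h⟯) x).Separable
  rw [IntermediateField.minpoly_eq]
  exact h1

end Concrete

section Main

/-- **the residue theorem on the Hauptmodul line** -/
theorem hres_main (k : Type) [Field k] (ℓ : ℕ) [Fact ℓ.Prime] [CharP k ℓ] [PerfectRing k ℓ]
    (N : ℕ) [NeZero N] (hNk : ((N : ℕ) : k) ≠ 0)
    (hPT : StmtPT) (hScale : StmtScale) (hTN : StmtTN)
    (τ : Fin (dedekindPsi N) → (↥(modularFunctionFieldFullC k N) →ₐ[k] LaurentSeries k))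
    (hinj : Function.Injective τ)
    (hjmap : ∀ i, τ i ⟨jqModC k, jqModC_mem_full k N⟩ = qExpand k N (jqModC k))
    (h : LaurentSeries k) (hh : IsAuxLine k N h) (c : k) (M : ℕ) (hM : 0 < M)
    (z z' : ↥(modularFunctionFieldFullC k N))
    (hz : IntJ (jqModC k) (z : LaurentSeries k)) (hz' : IntJ (jqModC k) (z' : LaurentSeries k))
    (hzz : (z : LaurentSeries k) ^ M = (h - HahnSeries.C c) * (z' : LaurentSeries k)) :
    (∑ i, τ i z / (τ i ⟨h, hh.mem⟩ - HahnSeries.C c) * thetaFun (τ i ⟨h, hh.mem⟩)).coeff 0 =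
      0 := by
  classical
  obtain ⟨b, G, hrel⟩ := hh.rel
  have hh0 : h ≠ 0 := fun h0 => hh.theta (by rw [h0, thetaFun_zero])
  have hCmem : ∀ (E : IntermediateField k (LaurentSeries k)) (r : k),
      (HahnSeries.C r : LaurentSeries k) ∈ E := fun E r => hahnC_mem_intermediateField r E
  have hjh : jqModC k ∈ k⟮h⟯ := by
    have h1 : jqModC k = Polynomial.aeval h G / h ^ b := by
      rw [eq_div_iff (pow_ne_zero b hh0)]
      exact hrel
    rw [h1]
    exact div_mem (IntermediateField.algebra_adjoin_le_adjoin k _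
      (Polynomial.aeval_mem_adjoin_singleton k h)) (pow_mem (mem_adjoin_simple_self k h) b)
  have hle : k⟮h⟯ ≤ modularFunctionFieldFullC k N := adjoin_simple_le_iff.2 hh.mem
  have htr : Transcendental k h := Fermat.Agent.INJ.transcendental_of_jqModC_mem k hjh
  have hhc : h - HahnSeries.C c ≠ 0 := by
    intro h0
    apply htr
    rw [sub_eq_zero.1 h0, ← algebraMap_eq_hahnC]
    exact isAlgebraic_algebraMap c
  haveI := hres_finite k N h hle hjh
  haveI := hres_separable k N h hle ℓ htr hh.theta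
  -- scaling
  obtain ⟨a₁, ha₁⟩ := hScale k (jqModC k) h b G hrel z hz
  obtain ⟨a₂, ha₂⟩ := hScale k (jqModC k) h b G hrel z' hz'
  obtain ⟨a, haa₁, haa₂⟩ : ∃ a : ℕ, a₁ ≤ a ∧ a₂ ≤ a := ⟨max a₁ a₂, le_max_left _ _, le_max_right _ _⟩
  have hzs : IntJ h (h ^ a * z) := ha₁ a haa₁
  have hzs' : IntJ h (h ^ (a * M) * z') :=
    ha₂ (a * M) (le_trans haa₂ (Nat.le_mul_of_pos_right a hM))
  -- the nilpotent trace
  let zs : ↥(ptL k N h hle) := ⟨h ^ a * z, mul_mem (pow_mem hh.mem a) z.2⟩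
  let zs' : ↥(ptL k N h hle) := ⟨h ^ (a * M) * z', mul_mem (pow_mem hh.mem _) z'.2⟩
  obtain ⟨P, hP⟩ := hline_nilp h htr (ptL k N h hle) c M zs zs' hzs hzs' (by
    show (h ^ a * (z : LaurentSeries k)) ^ M =
      (h - algebraMap k (LaurentSeries k) c) * (h ^ (a * M) * (z' : LaurentSeries k))
    rw [mul_pow, ← pow_mul, hzz, algebraMap_eq_hahnC]
    ring)
  -- `x = z / (h - c)` and its trace
  let u : ↥(k⟮h⟯) := ⟨(h ^ a * (h - HahnSeries.C c))⁻¹,
    inv_mem (mul_mem (pow_mem (mem_adjoin_simple_self k h) a)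
      (sub_mem (mem_adjoin_simple_self k h) (hCmem _ c)))⟩
  let x : ↥(ptL k N h hle) := ⟨(z : LaurentSeries k) / (h - HahnSeries.C c),
    div_mem z.2 (sub_mem hh.mem (hCmem _ c))⟩
  have hx : x = u • zs := by
    apply Subtype.ext
    show (z : LaurentSeries k) / (h - HahnSeries.C c) =
      (h ^ a * (h - HahnSeries.C c))⁻¹ * (h ^ a * (z : LaurentSeries k))
    field_simp
  have htrx : ((Algebra.trace ↥(k⟮h⟯) ↥(ptL k N h hle) x : ↥(k⟮h⟯)) : LaurentSeries k) =
      (h ^ a)⁻¹ * Polynomial.aeval h P := by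
    rw [hx, map_smul, smul_eq_mul]
    show (h ^ a * (h - HahnSeries.C c))⁻¹ *
      ((Algebra.trace ↥(k⟮h⟯) ↥(ptL k N h hle) zs : ↥(k⟮h⟯)) : LaurentSeries k) = _
    rw [hP, algebraMap_eq_hahnC]
    field_simp
  -- partial traces
  obtain ⟨⟨d, hd, hfib⟩, hsum⟩ := hPT k ℓ N hNk τ hinj hjmap h hle hjh
  let hF : ↥(modularFunctionFieldFullC k N) := ⟨h, hh.mem⟩
  have hF0 : hF ≠ 0 := fun h0 => hh0 (congrArg Subtype.val h0)
  let e : Fin (dedekindPsi N) → LaurentSeries k := fun i => τ i hF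
  have he0 : ∀ i, e i ≠ 0 := fun i => (map_ne_zero (τ i)).2 hF0
  have hτC : ∀ i (r : k), τ i ⟨HahnSeries.C r, hCmem _ r⟩ = HahnSeries.C r := by
    intro i r
    have h1 : (⟨HahnSeries.C r, hCmem _ r⟩ : ↥(modularFunctionFieldFullC k N)) =
        algebraMap k _ r := Subtype.ext (algebraMap_eq_hahnC r).symm
    rw [h1, AlgHom.commutes, algebraMap_eq_hahnC]
  have hτx : ∀ i, τ i ⟨x.1, x.2⟩ = τ i z / (e i - HahnSeries.C c) := by
    intro i
    have h1 : (⟨x.1, x.2⟩ : ↥(modularFunctionFieldFullC k N)) =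
        z / (hF - ⟨HahnSeries.C c, hCmem _ c⟩) := Subtype.ext rfl
    rw [h1, map_div₀, map_sub, hτC]
  have hτtr : ∀ i, τ i ⟨((Algebra.trace ↥(k⟮h⟯) ↥(ptL k N h hle) x : ↥(k⟮h⟯)) :
      LaurentSeries k), hle (Algebra.trace ↥(k⟮h⟯) ↥(ptL k N h hle) x).2⟩ =
      (e i ^ a)⁻¹ * Polynomial.aeval (e i) P := by
    intro i
    have h1 : (⟨((Algebra.trace ↥(k⟮h⟯) ↥(ptL k N h hle) x : ↥(k⟮h⟯)) : LaurentSeries k),
        hle (Algebra.trace ↥(k⟮h⟯) ↥(ptL k N h hle) x).2⟩ :
          ↥(modularFunctionFieldFullC k N)) = (hF ^ a)⁻¹ * Polynomial.aeval hF P := by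
      apply Subtype.ext
      show _ = (h ^ a)⁻¹ * ((Polynomial.aeval hF P : ↥(modularFunctionFieldFullC k N)) :
        LaurentSeries k)
      rw [htrx]
      congr 1
      rw [← IntermediateField.coe_val, ← Polynomial.aeval_algHom_apply]
      rfl
    rw [h1, map_mul, map_inv₀, map_pow, ← Polynomial.aeval_algHom_apply]
  -- the sum over a fibre
  have hfs : ∀ i₁, ∑ i ∈ Finset.univ.filter (fun i => e i = e i₁),
      τ i z / (e i - HahnSeries.C c) = (e i₁ ^ a)⁻¹ * Polynomial.aeval (e i₁) P := by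
    intro i₁
    have h1 := hsum i₁ x
    rw [hτtr i₁] at h1
    rw [← h1]
    refine Finset.sum_congr ?_ fun i _ => (hτx i).symm
    ext i
    simp only [Finset.mem_filter, Finset.mem_univ, true_and]
    rfl
  -- the norm of `h`
  have hJo : (qExpand k N (jqModC k)).order = -(N : ℤ) := res_order_J k N
  have hN0 : 0 < N := Nat.pos_of_ne_zero (NeZero.ne N)
  have hJneg : (qExpand k N (jqModC k)).order < 0 := by rw [hJo]; omega
  have hprod : (∏ i, e i).order = 0 := by
    obtain ⟨-, P₁, hP₁⟩ := hTN k ℓ N hNk τ hinj hjmap hF hh.int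
    obtain ⟨-, P₂, hP₂⟩ := hTN k ℓ N hNk τ hinj hjmap hF⁻¹ hh.int_inv
    have h1 : (∏ i, τ i hF) * (∏ i, τ i hF⁻¹) = 1 := by
      rw [← Finset.prod_mul_distrib]
      refine Finset.prod_eq_one fun i _ => ?_
      rw [← map_mul, mul_inv_cancel₀ hF0, map_one]
    rw [hP₁, hP₂, ← map_mul] at h1
    have h2 : P₁ * P₂ = 1 := by
      have h3 : Polynomial.aeval (qExpand k N (jqModC k)) (P₁ * P₂ - 1) = 0 := by
        rw [map_sub, h1, map_one, sub_self]
      exact sub_eq_zero.1 (aeval_J_eq_zero hJneg _ h3)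
    have h4 : IsUnit P₁ := IsUnit.of_mul_eq_one _ h2
    obtain ⟨r, -, hr⟩ := Polynomial.isUnit_iff.1 h4
    show (∏ i, τ i hF).order = 0
    rw [hP₁, ← hr, aeval_C, algebraMap_eq_hahnC]
    exact HahnSeries.order_C
  have hordsum : ∑ i, (e i).order = 0 := by
    rw [← hres_order_prod Finset.univ e fun i _ => he0 i]
    exact hprod
  -- grouping by the values of `e`
  have hgroup : ∀ (g : LaurentSeries k → LaurentSeries k → LaurentSeries k)
      (F : Fin (dedekindPsi N) → LaurentSeries k),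
      ∑ i, g (F i) (e i) = ∑ y ∈ Finset.univ.image e,
        ∑ i ∈ Finset.univ.filter (fun i => e i = y), g (F i) (e i) := fun g F =>
    (Finset.sum_fiberwise_of_maps_to (fun i _ => Finset.mem_image_of_mem e (Finset.mem_univ i))
      (fun i => g (F i) (e i))).symm
  have hordE : ∑ y ∈ Finset.univ.image e, y.order = 0 := by
    have h1 : ∑ i, (e i).order = ∑ y ∈ Finset.univ.image e,
        ∑ i ∈ Finset.univ.filter (fun i => e i = y), (e i).order :=
      (Finset.sum_fiberwise_of_maps_to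
        (fun i _ => Finset.mem_image_of_mem e (Finset.mem_univ i))
        (fun i => (e i).order)).symm
    have h2 : ∀ y ∈ Finset.univ.image e,
        ∑ i ∈ Finset.univ.filter (fun i => e i = y), (e i).order = (d : ℤ) * y.order := by
      intro y hy
      obtain ⟨i₁, -, rfl⟩ := Finset.mem_image.1 hy
      rw [Finset.sum_congr rfl (fun i hi => by rw [(Finset.mem_filter.1 hi).2] :
        ∀ i ∈ Finset.univ.filter (fun i => e i = e i₁), (e i).order = (e i₁).order),
        Finset.sum_const, nsmul_eq_mul]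
      congr 2
      have := hfib i₁
      convert this using 2
    rw [hordsum, Finset.sum_congr rfl h2, ← Finset.mul_sum] at h1
    rcases mul_eq_zero.1 h1.symm with h3 | h3
    · exact absurd (by exact_mod_cast h3) hd.ne'
    · exact h3
  -- conclusion
  have htotal : ∑ i, τ i z / (τ i ⟨h, hh.mem⟩ - HahnSeries.C c) * thetaFun (τ i ⟨h, hh.mem⟩) =
      ∑ y ∈ Finset.univ.image e, (y ^ a)⁻¹ * Polynomial.aeval y P * thetaFun y := by
    have h1 := hgroup (fun A B => A * thetaFun B) (fun i => τ i z / (e i - HahnSeries.C c))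
    refine h1.trans (Finset.sum_congr rfl fun y hy => ?_)
    obtain ⟨i₁, -, rfl⟩ := Finset.mem_image.1 hy
    rw [Finset.sum_congr rfl (fun i hi => by rw [(Finset.mem_filter.1 hi).2] :
      ∀ i ∈ Finset.univ.filter (fun i => e i = e i₁),
        τ i z / (e i - HahnSeries.C c) * thetaFun (e i) =
        τ i z / (e i - HahnSeries.C c) * thetaFun (e i₁)), ← Finset.sum_mul, hfs i₁]
  rw [htotal, HahnSeries.coeff_sum,
    Finset.sum_congr rfl (fun y hy => by
      obtain ⟨i₁, -, rfl⟩ := Finset.mem_image.1 hy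
      exact hres_residue (e i₁) (he0 i₁) a P :
      ∀ y ∈ Finset.univ.image e, ((y ^ a)⁻¹ * Polynomial.aeval y P * thetaFun y).coeff 0 =
        (P * X).coeff a * ((y.order : ℤ) : k)),
    ← Finset.mul_sum, ← Int.cast_sum, hordE, Int.cast_zero, mul_zero]

end Main

end Fermat.Agent.ES.I2aux
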