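import Fermat.Agent.ES.I2aux.Plan

/-!
# ES / I2aux — interface, part 2: partial traces through the fibres of `i ↦ τ_i h`

`k` perfect of characteristic `ℓ`, `(N : k) ≠ 0`, `F_k = modularFunctionFieldFullC k N`,
`τ_i : F_k → k((Q))`, `i < ψ(N)`, the full family of embeddings over `k(j̄)` (`τ_i j̄ = J`), and
`h ∈ F_k` with `j̄ ∈ k(h)`.  The embeddings with the same value `τ_i h = e` are exactly the
`[F_k : k(h)]` embeddings of `F_k` over `k(h)` (with `h ↦ e`), so

  `∑_{i : τ_i h = τ_{i₁} h} τ_i x = τ_{i₁} (Tr_{F_k / k(h)} x)`,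

and all fibres have the same cardinality `[F_k : k(h)] ≥ 1`.

Proof: the fibre over `e` injects into the `k(h)`-embeddings `F_k → k((Q))`, at most
`[F_k : k(h)]` of them (`card_algHom_le_finrank`); the set of values `e` injects into the
`k(j̄)`-embeddings `k(h) → k((Q))`, at most `[k(h) : k(j̄)]`; the sum of the cardinalities is
`ψ(N) = [F_k : k(j̄)] = [F_k : k(h)] [k(h) : k(j̄)]` (`ES/I2/TraceNorm.lean`: `tn_finrank`), so
all inequalities are equalities; then `ES/I2/Embed.lean` (`trace_eq_sum_of_embeddings`) over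
`k(h)`; `F_k / k(h)` is separable (`INJ.isSeparable_of_theta` or the tower).
-/

set_option autoImplicit false

noncomputable section

namespace Fermat.Agent.ES.I2aux

open ModularCurve IntermediateField Fermat.Agent.ES Fermat.Agent.S24 Fermat.Agent.ES.M
open Fermat.Agent.ES.I2

/-- `F_k` as an extension of `k(h)` -/
abbrev ptL (k : Type) [Field k] (N : ℕ) [NeZero N] (h : LaurentSeries k)
    (hle : k⟮h⟯ ≤ modularFunctionFieldFullC k N) :
    IntermediateField k⟮h⟯ (LaurentSeries k) :=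
  extendScalars hle

open scoped Classical in
/-- **(PT)** partial traces through the fibres of `i ↦ τ_i h`. -/
def StmtPT : Prop :=
  ∀ (k : Type) [Field k] (ℓ : ℕ) [Fact ℓ.Prime] [CharP k ℓ] [PerfectRing k ℓ]
    (N : ℕ) [NeZero N], (N : k) ≠ 0 →
    ∀ τ : Fin (dedekindPsi N) → (↥(modularFunctionFieldFullC k N) →ₐ[k] LaurentSeries k),
      Function.Injective τ →
      (∀ i, τ i ⟨jqModC k, jqModC_mem_full k N⟩ = qExpand k N (jqModC k)) →
      ∀ (h : LaurentSeries k) (hle : k⟮h⟯ ≤ modularFunctionFieldFullC k N),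
        jqModC k ∈ k⟮h⟯ →
        (∃ d : ℕ, 0 < d ∧ ∀ i₁ : Fin (dedekindPsi N),
          (Finset.univ.filter (fun i => τ i ⟨h, hle (mem_adjoin_simple_self k h)⟩ =
            τ i₁ ⟨h, hle (mem_adjoin_simple_self k h)⟩)).card = d) ∧
        ∀ (i₁ : Fin (dedekindPsi N)) (x : ↥(ptL k N h hle)),
          ∑ i ∈ Finset.univ.filter (fun i => τ i ⟨h, hle (mem_adjoin_simple_self k h)⟩ =
              τ i₁ ⟨h, hle (mem_adjoin_simple_self k h)⟩), τ i ⟨x.1, x.2⟩ =
            τ i₁ ⟨((Algebra.trace ↥(k⟮h⟯) ↥(ptL k N h hle) x : ↥(k⟮h⟯)) : LaurentSeries k),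
              hle (Algebra.trace ↥(k⟮h⟯) ↥(ptL k N h hle) x).2⟩

end Fermat.Agent.ES.I2aux
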